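import Fermat.Agent.S53.Abstract.Final

/-!
# Abstract pro-representability: the final statement

Given a functor `F` (a family of subsets of `X → A`) satisfying `FunctorAxioms`, there is a
universal complete Noetherian local `𝒪`-algebra carrying a universal family.
-/

set_option autoImplicit false
set_option linter.style.haveILetI false
set_option linter.unusedSectionVars false

open IsLocalRing GaloisRep

namespace Fermat.Agent.S53

/-- The universal data attached to a setup. -/
noncomputable def Setup.universalData {𝒪 : Type} [CommRing 𝒪] [IsLocalRing 𝒪] {X : Type}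
    {ξ₀ : X → 𝒪}
    {F : ∀ (A : Type) [CommRing A] [IsLocalRing A] [Algebra 𝒪 A], (X → A) → Prop}
    (S : Setup 𝒪 X ξ₀ F) [IsNoetherianRing 𝒪] [Finite (ResidueField 𝒪)] :
    UniversalData 𝒪 X F where
  R := S.R
  instCommRing := inferInstance
  instIsLocalRing := inferInstance
  instIsNoetherianRing := inferInstance
  instIsAdicComplete := S.isAdicComplete_R
  instAlgebra := inferInstance
  instIsLocalHom := S.isLocalHom_algebraMap_R
  residue_surjective := S.residue_surjective_R
  ξ := S.ξR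
  isF := fun B _ _ _ hB q hq => S.isF_ξR B hB q hq
  universal := fun _ _ _ _ _ _ _ hsurj ξA H => S.universal_R hsurj ξA H
  unique := fun _ _ _ _ _ _ _ _ φ φ' hφ hφ' h => S.unique_R φ φ' hφ hφ' h

/-- A setup exists over a discrete valuation ring with finite residue field. -/
theorem nonempty_setup (𝒪 : Type) [CommRing 𝒪] [IsDomain 𝒪] [IsDiscreteValuationRing 𝒪]
    [Finite (IsLocalRing.ResidueField 𝒪)]
    (X : Type) (ξ₀ : X → 𝒪)
    (F : ∀ (A : Type) [CommRing A] [IsLocalRing A] [Algebra 𝒪 A], (X → A) → Prop)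
    (hF : FunctorAxioms 𝒪 X ξ₀ F) : Nonempty (Setup 𝒪 X ξ₀ F) := by
  obtain ⟨ϖ, hϖ⟩ := IsDiscreteValuationRing.exists_irreducible 𝒪
  obtain ⟨d, t, ht_mem, ht⟩ := exists_gens hF
  exact ⟨⟨hF, ϖ, hϖ.maximalIdeal_eq, d, t, ht_mem, ht⟩⟩

/-- **Abstract pro-representability**: a functor satisfying `FunctorAxioms` has universal data. -/
theorem exists_universalData (𝒪 : Type) [CommRing 𝒪] [IsDomain 𝒪] [IsDiscreteValuationRing 𝒪]
    [IsAdicComplete (IsLocalRing.maximalIdeal 𝒪) 𝒪] [Finite (IsLocalRing.ResidueField 𝒪)]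
    (X : Type) (ξ₀ : X → 𝒪)
    (F : ∀ (A : Type) [CommRing A] [IsLocalRing A] [Algebra 𝒪 A], (X → A) → Prop)
    (hF : FunctorAxioms 𝒪 X ξ₀ F) : Nonempty (UniversalData 𝒪 X F) := by
  obtain ⟨S⟩ := nonempty_setup 𝒪 X ξ₀ F hF
  exact ⟨S.universalData⟩

end Fermat.Agent.S53
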