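import Fermat.Agent.S53.Defs

set_option autoImplicit false

open IsLocalRing GaloisRep

namespace Fermat.Agent.S53

section Quot

variable {𝒪 : Type} [CommRing 𝒪]
variable {A : Type} [CommRing A] [IsLocalRing A]

set_option linter.style.haveILetI false

lemma pow_succ_ne_top (n : ℕ) : maximalIdeal A ^ (n + 1) ≠ ⊤ := by
  intro h
  have : maximalIdeal A ^ (n + 1) ≤ maximalIdeal A := Ideal.pow_le_self (Nat.succ_ne_zero n)
  rw [h] at this
  exact (maximalIdeal.isMaximal A).ne_top (top_le_iff.mp this)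

/-- The quotient of a local ring by a proper ideal is local. -/
lemma isLocalRing_quotient {I : Ideal A} (hI : I ≠ ⊤) : IsLocalRing (A ⧸ I) :=
  haveI : Nontrivial (A ⧸ I) := Ideal.Quotient.nontrivial_iff.mpr hI
  IsLocalRing.of_surjective' (Ideal.Quotient.mk I) Ideal.Quotient.mk_surjective

lemma isLocalHom_mk {I : Ideal A} (hI : I ≠ ⊤) :
    haveI := isLocalRing_quotient hI
    IsLocalHom (Ideal.Quotient.mk I) :=
  haveI : Nontrivial (A ⧸ I) := Ideal.Quotient.nontrivial_iff.mpr hI
  IsLocalHom.of_surjective (Ideal.Quotient.mk I) Ideal.Quotient.mk_surjective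

lemma map_mk_maximalIdeal {I : Ideal A} (hI : I ≠ ⊤) :
    haveI := isLocalRing_quotient hI
    (maximalIdeal A).map (Ideal.Quotient.mk I) = maximalIdeal (A ⧸ I) := by
  haveI := isLocalRing_quotient hI
  haveI := isLocalHom_mk hI
  ext x
  obtain ⟨x, rfl⟩ := Ideal.Quotient.mk_surjective x
  constructor
  · intro hx
    have hle : (maximalIdeal A).map (Ideal.Quotient.mk I) ≤ maximalIdeal (A ⧸ I) :=
      Ideal.map_le_iff_le_comap.mpr fun a ha =>
        Ideal.mem_comap.mpr (map_nonunit (Ideal.Quotient.mk I) a ha)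
    exact hle hx
  · intro hx
    apply Ideal.mem_map_of_mem
    rw [mem_maximalIdeal, mem_nonunits_iff] at hx ⊢
    exact fun h => hx (h.map _)

lemma maximalIdeal_quotient_pow_eq_bot {I : Ideal A} (hI : I ≠ ⊤) {n : ℕ}
    (hn : maximalIdeal A ^ n ≤ I) :
    haveI := isLocalRing_quotient hI
    maximalIdeal (A ⧸ I) ^ n = ⊥ := by
  haveI := isLocalRing_quotient hI
  rw [← map_mk_maximalIdeal hI, ← Ideal.map_pow, Ideal.map_eq_bot_iff_le_ker, Ideal.mk_ker]
  exact hn

/-- Quotients of a Noetherian local `𝒪`-algebra (with residue field a quotient of `𝒪`) by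
`𝔪`-primary ideals are Artinian test algebras. -/
lemma isArtinianTestAlgebra_quotient [IsNoetherianRing A] [Algebra 𝒪 A]
    [IsLocalHom (algebraMap 𝒪 A)]
    (hsurj : Function.Surjective (IsLocalRing.residue A ∘ algebraMap 𝒪 A))
    {I : Ideal A} (hI : I ≠ ⊤) {n : ℕ} (hn : maximalIdeal A ^ n ≤ I) :
    haveI := isLocalRing_quotient hI
    IsArtinianTestAlgebra 𝒪 (A ⧸ I) := by
  haveI := isLocalRing_quotient hI
  haveI := isLocalHom_mk hI
  refine ⟨?_, ?_, ?_⟩
  · have : algebraMap 𝒪 (A ⧸ I) = (Ideal.Quotient.mk I).comp (algebraMap 𝒪 A) := rfl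
    rw [this]
    exact RingHom.isLocalHom_comp _ _
  · intro y
    obtain ⟨y, rfl⟩ := IsLocalRing.residue_surjective y
    obtain ⟨a, rfl⟩ := Ideal.Quotient.mk_surjective y
    obtain ⟨c, hc⟩ := hsurj (IsLocalRing.residue A a)
    refine ⟨c, ?_⟩
    simp only [Function.comp_apply] at hc ⊢
    have h1 : algebraMap 𝒪 A c - a ∈ maximalIdeal A := by
      rw [← residue_eq_zero_iff, map_sub, hc, sub_self]
    have h2 : Ideal.Quotient.mk I (algebraMap 𝒪 A c - a) ∈ maximalIdeal (A ⧸ I) := by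
      rw [← map_mk_maximalIdeal hI]
      exact Ideal.mem_map_of_mem _ h1
    rw [← residue_eq_zero_iff, map_sub, map_sub, sub_eq_zero] at h2
    exact h2
  · rw [isArtinianRing_iff_isNilpotent_maximalIdeal]
    exact ⟨n, maximalIdeal_quotient_pow_eq_bot hI hn⟩

end Quot

end Fermat.Agent.S53
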