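import Fermat.Agent.S53.Exists
import Fermat.Agent.S53.Quot

set_option autoImplicit false
set_option linter.style.haveILetI false
set_option linter.unusedSectionVars false

open IsLocalRing GaloisRep
open scoped TensorProduct

namespace Fermat.Agent.S53

section General

lemma isEquiv_symm {A : Type} [CommRing A] [IsLocalRing A] {ρ ρ' : GaloisRepAdic A}
    (h : ρ.IsEquiv ρ') : ρ'.IsEquiv ρ := by
  obtain ⟨e⟩ := h; exact ⟨e.symm⟩

lemma isEquiv_trans {A : Type} [CommRing A] [IsLocalRing A] {ρ ρ' ρ'' : GaloisRepAdic A}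
    (h : ρ.IsEquiv ρ') (h' : ρ'.IsEquiv ρ'') : ρ.IsEquiv ρ'' := by
  obtain ⟨e⟩ := h; obtain ⟨e'⟩ := h'; exact ⟨e.trans e'⟩

lemma isEquiv_baseChangeAlong {A B : Type} [CommRing A] [IsLocalRing A] [CommRing B]
    [IsLocalRing B] (φ : A →+* B) (hφ : IsLocalHom φ) {ρ ρ' : GaloisRepAdic A}
    (h : ρ.IsEquiv ρ') : (ρ.baseChangeAlong φ hφ).IsEquiv (ρ'.baseChangeAlong φ hφ) := by
  obtain ⟨e⟩ := h; exact ⟨e.baseChangeAlong φ hφ⟩

variable {𝒪 : Type} [CommRing 𝒪] [IsLocalRing 𝒪]
variable {ρbar : ResidualGaloisRep (ResidueField 𝒪)}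
variable {𝒟 : ∀ ⦃A : Type⦄ [CommRing A] [IsLocalRing A] [Algebra 𝒪 A], GaloisRepAdic A → Prop}

/-- Transfer of a deformation condition along equivalences, over complete Noetherian local rings. -/
lemma D_of_isEquiv_complete (h𝒟 : IsDeformationCondition 𝒪 𝒟) {A : Type} [CommRing A]
    [IsLocalRing A] [IsNoetherianRing A] [IsAdicComplete (maximalIdeal A) A] [Algebra 𝒪 A]
    (hloc : IsLocalHom (algebraMap 𝒪 A))
    (hsurj : Function.Surjective (IsLocalRing.residue A ∘ algebraMap 𝒪 A))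
    {ρ ρ' : GaloisRepAdic A} (e : ρ.IsEquiv ρ') (h : 𝒟 ρ) : 𝒟 ρ' :=
  (h𝒟.iff_forall_surjective hloc hsurj ρ').mpr fun _B _ _ _ hB q hq hqs =>
    h𝒟.of_isEquiv hB (isEquiv_baseChangeAlong _ hq e)
      ((h𝒟.iff_forall_surjective hloc hsurj ρ).mp h hB q hq hqs)

lemma isResidual_mapHom (D : RigidData ρbar) {A B : Type} [CommRing A] [IsLocalRing A]
    [Algebra 𝒪 A] [CommRing B] [IsLocalRing B] [Algebra 𝒪 B] (φ : A →ₐ[𝒪] B)
    (hφ : IsLocalHom (φ : A →+* B)) {r : GQ →* Matrix (Fin 2) (Fin 2) A}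
    (hr : IsResidual D r) : IsResidual D (mapHom (φ : A →+* B) r) := by
  intro g i j
  have h := hr g i j
  have : mapHom (φ : A →+* B) r g i j - algebraMap 𝒪 B (D.lift g i j) =
      φ (r g i j - algebraMap 𝒪 A (D.lift g i j)) := by
    rw [map_sub, AlgHom.commutes]; rfl
  rw [this]
  exact (mem_maximalIdeal _).mpr
    (haveI := hφ; map_nonunit (φ : A →+* B) _ ((mem_maximalIdeal _).mp h))

lemma isNormal_mapHom (D : RigidData ρbar) {A B : Type} [CommRing A]
    [Algebra 𝒪 A] [CommRing B] [Algebra 𝒪 B] (φ : A →ₐ[𝒪] B)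
    {r : GQ → Matrix (Fin 2) (Fin 2) A}
    (hr : IsNormal D r) : IsNormal D (fun g => (r g).map φ) := by
  obtain ⟨h1, h2, h3⟩ := hr
  refine ⟨?_, ?_, ?_⟩
  · rw [linComb_map, h1, map_zero]
  · rw [linComb_map, h2, map_zero]
  · rw [linComb_map, h3, map_one]

end General

section Universal

variable {𝒪 : Type} [CommRing 𝒪] [IsLocalRing 𝒪]
variable {ρbar : ResidualGaloisRep (ResidueField 𝒪)}
variable {𝒟 : ∀ ⦃A : Type⦄ [CommRing A] [IsLocalRing A] [Algebra 𝒪 A], GaloisRepAdic A → Prop}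
variable {D : RigidData ρbar} (U : UniversalData 𝒪 XIdx (FDef D 𝒟))

/-- The universal matrix family, as a plain function. -/
def univFun : GQ → Matrix (Fin 2) (Fin 2) U.R := fun g => Matrix.of fun i j => U.ξ (g, i, j)

lemma univFun_apply (g : GQ) (i j : Fin 2) : univFun U g i j = U.ξ (g, i, j) := rfl

/-- The information carried by `isF` at the level `n`. -/
lemma exists_level (n : ℕ) :
    haveI := isLocalRing_quotient (pow_succ_ne_top (A := U.R) n)
    ∃ (r' : GQ →* Matrix (Fin 2) (Fin 2) (U.R ⧸ maximalIdeal U.R ^ (n + 1))) (_ : MatCont r'),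
      (∀ g, (univFun U g).map (Ideal.Quotient.mk (maximalIdeal U.R ^ (n + 1))) = r' g) ∧
      IsResidual D r' ∧ IsNormal D r' := by
  haveI := isLocalRing_quotient (pow_succ_ne_top (A := U.R) n)
  have hB := isArtinianTestAlgebra_quotient (𝒪 := 𝒪) U.residue_surjective
    (pow_succ_ne_top (A := U.R) n) (le_refl _)
  obtain ⟨r', hr', hent, hres, hnorm, -⟩ := U.isF _ hB
    (Ideal.Quotient.mkₐ 𝒪 (maximalIdeal U.R ^ (n + 1)))
    (isLocalHom_mk (pow_succ_ne_top (A := U.R) n))
  refine ⟨r', hr', fun g => ?_, hres, hnorm⟩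
  ext i j
  exact hent g i j

lemma eq_of_forall_mk_eq {a b : U.R}
    (h : ∀ n : ℕ, Ideal.Quotient.mk (maximalIdeal U.R ^ (n + 1)) a =
      Ideal.Quotient.mk (maximalIdeal U.R ^ (n + 1)) b) : a = b := by
  rw [← sub_eq_zero]
  apply IsHausdorff.haus (I := maximalIdeal U.R) inferInstance
  intro n
  rw [smul_eq_mul, Ideal.mul_top, SModEq.sub_mem, sub_zero]
  have h1 := h n
  rw [Ideal.Quotient.eq] at h1
  exact Ideal.pow_le_pow_right (Nat.le_succ n) h1

lemma matrix_eq_of_forall_map_eq {M N : Matrix (Fin 2) (Fin 2) U.R}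
    (h : ∀ n : ℕ, M.map (Ideal.Quotient.mk (maximalIdeal U.R ^ (n + 1))) =
      N.map (Ideal.Quotient.mk (maximalIdeal U.R ^ (n + 1)))) : M = N := by
  ext i j
  apply eq_of_forall_mk_eq U
  intro n
  have := congrFun (congrFun (h n) i) j
  simpa only [Matrix.map_apply] using this

lemma univFun_one : univFun U 1 = 1 := by
  apply matrix_eq_of_forall_map_eq U
  intro n
  obtain ⟨r', -, hent, -, -⟩ := exists_level U n
  rw [hent, map_one]
  exact (Matrix.map_one _ (map_zero _) (map_one _)).symm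

lemma univFun_mul (g h : GQ) : univFun U (g * h) = univFun U g * univFun U h := by
  apply matrix_eq_of_forall_map_eq U
  intro n
  obtain ⟨r', -, hent, -, -⟩ := exists_level U n
  rw [hent, map_mul, Matrix.map_mul, hent, hent]

/-- The universal matrix representation. -/
def univHom : GQ →* Matrix (Fin 2) (Fin 2) U.R where
  toFun := univFun U
  map_one' := univFun_one U
  map_mul' := univFun_mul U

lemma univHom_apply (g : GQ) (i j : Fin 2) : univHom U g i j = U.ξ (g, i, j) := rfl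

lemma matCont_univHom : MatCont (univHom U) := by
  intro n
  haveI := isLocalRing_quotient (pow_succ_ne_top (A := U.R) n)
  obtain ⟨r', hr', hent, -, -⟩ := exists_level U n
  obtain ⟨L, hL, h⟩ := hr' (n + 1)
  refine ⟨L, hL, fun σ hσ i j => ?_⟩
  have h1 := h σ hσ i j
  rw [maximalIdeal_quotient_pow_eq_bot (pow_succ_ne_top (A := U.R) n) (le_refl _),
    Ideal.mem_bot] at h1
  have h2 : Ideal.Quotient.mk (maximalIdeal U.R ^ (n + 1)) ((univHom U σ - 1) i j) = 0 := by
    rw [← h1, ← hent σ]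
    simp only [Matrix.sub_apply, map_sub, Matrix.map_apply]
    congr 1
    by_cases hij : i = j
    · subst hij; simp
    · simp [Matrix.one_apply_ne hij]
  rw [Ideal.Quotient.eq_zero_iff_mem] at h2
  exact Ideal.pow_le_pow_right (Nat.le_succ n) h2

lemma isResidual_univHom : IsResidual D (univHom U) := by
  intro g i j
  haveI := isLocalRing_quotient (pow_succ_ne_top (A := U.R) 0)
  haveI := isLocalHom_mk (pow_succ_ne_top (A := U.R) 0)
  obtain ⟨r', -, hent, hres, -⟩ := exists_level U 0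
  have h1 := hres g i j
  rw [← hent g] at h1
  have h2 : (univFun U g).map (Ideal.Quotient.mk (maximalIdeal U.R ^ (0 + 1))) i j -
      algebraMap 𝒪 (U.R ⧸ maximalIdeal U.R ^ (0 + 1)) (D.lift g i j) =
      Ideal.Quotient.mk (maximalIdeal U.R ^ (0 + 1))
        (univHom U g i j - algebraMap 𝒪 U.R (D.lift g i j)) := by
    rw [map_sub]; rfl
  rw [h2] at h1
  by_contra hn
  have hu : IsUnit (univHom U g i j - algebraMap 𝒪 U.R (D.lift g i j)) := by
    by_contra hnu
    exact hn ((mem_maximalIdeal _).mpr hnu)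
  exact (mem_maximalIdeal _).mp h1 (hu.map _)

lemma isNormal_univHom : IsNormal D (univHom U) := by
  refine ⟨?_, ?_, ?_⟩
  · apply eq_of_forall_mk_eq U
    intro n
    obtain ⟨r', -, hent, -, hnorm⟩ := exists_level U n
    have := linComb_map (Ideal.Quotient.mkₐ 𝒪 (maximalIdeal U.R ^ (n + 1))) D.x (univHom U) 0 1
    rw [map_zero]
    refine Eq.trans this.symm ?_
    rw [← hnorm.1]
    congr 2
    funext g
    exact hent g
  · apply eq_of_forall_mk_eq U
    intro n
    obtain ⟨r', -, hent, -, hnorm⟩ := exists_level U n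
    have := linComb_map (Ideal.Quotient.mkₐ 𝒪 (maximalIdeal U.R ^ (n + 1))) D.x (univHom U) 1 0
    rw [map_zero]
    refine Eq.trans this.symm ?_
    rw [← hnorm.2.1]
    congr 2
    funext g
    exact hent g
  · apply eq_of_forall_mk_eq U
    intro n
    obtain ⟨r', -, hent, -, hnorm⟩ := exists_level U n
    have := linComb_map (Ideal.Quotient.mkₐ 𝒪 (maximalIdeal U.R ^ (n + 1))) D.y (univHom U) 0 1
    rw [map_one]
    refine Eq.trans this.symm ?_
    rw [← hnorm.2.2]
    congr 2
    funext g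
    exact hent g

/-- `𝒟` holds for the universal representation. -/
lemma isOfType_univ (h𝒟 : IsDeformationCondition 𝒪 𝒟) :
    𝒟 (ofMatrix (univHom U) (matCont_univHom U)) := by
  refine (h𝒟.iff_forall_surjective U.instIsLocalHom U.residue_surjective _).mpr ?_
  intro B _ _ _ hB q hq _
  obtain ⟨r', hr', hent, -, -, h𝒟'⟩ := U.isF B hB q hq
  have hr'eq : r' = mapHom (q : U.R →+* B) (univHom U) :=
    MonoidHom.ext fun g => by
      ext i j
      exact (hent g i j).symm
  subst hr'eq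
  exact h𝒟.of_isEquiv hB
    (isEquiv_symm (baseChangeAlong_ofMatrix_isEquiv (q : U.R →+* B) hq (univHom U)
      (matCont_univHom U))) h𝒟'

/-- The universal property, in the form required by `DeformationRingData`. -/
lemma universal_univ (h𝒟 : IsDeformationCondition 𝒪 𝒟)
    (A : Type) [CommRing A] [IsLocalRing A] [IsNoetherianRing A]
    [IsAdicComplete (IsLocalRing.maximalIdeal A) A] [Algebra 𝒪 A] [IsLocalHom (algebraMap 𝒪 A)]
    (hsurj : Function.Surjective (IsLocalRing.residue A ∘ algebraMap 𝒪 A))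
    (ρA : GaloisRepAdic A) (hρA : 𝒟 ρA)
    (hres : ρA.residual.IsEquiv
      (ρbar.baseChangeAlong (IsLocalRing.ResidueField.map (algebraMap 𝒪 A)))) :
    ∃! φ : U.R →ₐ[𝒪] A, ∃ hφ : IsLocalHom (φ : U.R →+* A),
      ((ofMatrix (univHom U) (matCont_univHom U)).baseChangeAlong (φ : U.R →+* A) hφ).IsEquiv
        ρA := by
  obtain ⟨rA, hrA, hresA, hnormA, heqA⟩ := exists_normal_form D ρA hres
  have h𝒟A : 𝒟 (ofMatrix rA hrA) :=
    D_of_isEquiv_complete h𝒟 inferInstance hsurj (isEquiv_symm heqA) hρA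
  -- the hypothesis of the abstract universal property
  have hyp : ∀ (B : Type) [CommRing B] [IsLocalRing B] [Algebra 𝒪 B],
      IsArtinianTestAlgebra 𝒪 B → ∀ (q : A →ₐ[𝒪] B), IsLocalHom (q : A →+* B) →
        Function.Surjective q → FDef D 𝒟 B (q ∘ fun x : XIdx => rA x.1 x.2.1 x.2.2) := by
    intro B _ _ _ hB q hq hqs
    refine ⟨mapHom (q : A →+* B) rA, matCont_map _ hq hrA, fun g i j => rfl,
      isResidual_mapHom D q hq hresA, isNormal_mapHom D q hnormA, ?_⟩
    exact h𝒟.of_isEquiv hB (baseChangeAlong_ofMatrix_isEquiv (q : A →+* B) hq rA hrA)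
      ((h𝒟.iff_forall_surjective inferInstance hsurj _).mp h𝒟A hB q hq hqs)
  obtain ⟨φ, hφloc, hφ⟩ := U.universal A hsurj _ hyp
  have hmap : mapHom (φ : U.R →+* A) (univHom U) = rA :=
    MonoidHom.ext fun g => by
      ext i j
      exact congrFun hφ (g, i, j)
  refine ⟨φ, ⟨hφloc, ?_⟩, ?_⟩
  · have h1 := baseChangeAlong_ofMatrix_isEquiv (φ : U.R →+* A) hφloc (univHom U)
      (matCont_univHom U)
    have h2 : (ofMatrix (mapHom (φ : U.R →+* A) (univHom U))
        (matCont_map _ hφloc (matCont_univHom U))).IsEquiv (ofMatrix rA hrA) := by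
      subst hmap
      exact ⟨GaloisRepAdic.Equiv.refl _⟩
    exact isEquiv_trans (isEquiv_trans h1 h2) heqA
  · rintro φ' ⟨hφ', heq'⟩
    have h1 := baseChangeAlong_ofMatrix_isEquiv (φ' : U.R →+* A) hφ' (univHom U)
      (matCont_univHom U)
    have h2 : (ofMatrix (mapHom (φ' : U.R →+* A) (univHom U))
        (matCont_map _ hφ' (matCont_univHom U))).IsEquiv (ofMatrix rA hrA) :=
      isEquiv_trans (isEquiv_trans (isEquiv_symm h1) heq') (isEquiv_symm heqA)
    have h3 := normal_form_unique D _ _ _ _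
      (isResidual_mapHom D φ' hφ' (isResidual_univHom U))
      (isNormal_mapHom D φ' (isNormal_univHom U)) hresA hnormA h2
    apply U.unique A hsurj φ' φ hφ' hφloc
    rw [hφ]
    funext x
    obtain ⟨g, i, j⟩ := x
    have := congrFun (congrFun (congrArg (fun r : GQ →* Matrix (Fin 2) (Fin 2) A => r g) h3) i) j
    exact this

end Universal

/-- Assembly: a universal datum for the rigidified functor gives a deformation ring datum. -/
theorem nonempty_deformationRingData_of_universalData {𝒪 : Type} [CommRing 𝒪] [IsDomain 𝒪]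
    [IsDiscreteValuationRing 𝒪] [IsAdicComplete (IsLocalRing.maximalIdeal 𝒪) 𝒪]
    {ρbar : ResidualGaloisRep (ResidueField 𝒪)}
    {𝒟 : ∀ ⦃A : Type⦄ [CommRing A] [IsLocalRing A] [Algebra 𝒪 A], GaloisRepAdic A → Prop}
    {D : RigidData ρbar} (U : UniversalData 𝒪 XIdx (FDef D 𝒟))
    (h𝒟 : IsDeformationCondition 𝒪 𝒟) (habs : ρbar.IsAbsolutelyIrreducible) :
    Nonempty (DeformationRingData 𝒪 ρbar 𝒟) :=
  ⟨{ R := U.R
     residue_surjective := U.residue_surjective
     absIrr := habs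
     ρ := ofMatrix (univHom U) (matCont_univHom U)
     isOfType := isOfType_univ U h𝒟
     residual_isEquiv := residual_ofMatrix_isEquiv D _ _ (isResidual_univHom U)
     universal := fun A _ _ _ _ _ _ hsurj ρA hρA hres =>
       universal_univ U h𝒟 A hsurj ρA hρA hres }⟩

end Fermat.Agent.S53
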