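import Fermat.Agent.S53.FunctorB

set_option autoImplicit false
set_option linter.style.haveILetI false
set_option linter.unusedSectionVars false

open IsLocalRing GaloisRep
open scoped TensorProduct

namespace Fermat.Agent.S53

section Base

variable {𝒪 : Type} [CommRing 𝒪] [IsLocalRing 𝒪]
variable {ρbar : ResidualGaloisRep (ResidueField 𝒪)}
variable {𝒟 : ∀ ⦃A : Type⦄ [CommRing A] [IsLocalRing A] [Algebra 𝒪 A], GaloisRepAdic A → Prop}
variable (D : RigidData ρbar)

lemma isLocalHom_algebraMap_residueField : IsLocalHom (algebraMap 𝒪 (ResidueField 𝒪)) := by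
  rw [IsLocalRing.ResidueField.algebraMap_eq]
  infer_instance

lemma isArtinianTestAlgebra_residueField : IsArtinianTestAlgebra 𝒪 (ResidueField 𝒪) where
  isLocalHom := isLocalHom_algebraMap_residueField
  residue_surjective := by
    intro y
    obtain ⟨x, rfl⟩ := IsLocalRing.residue_surjective y
    obtain ⟨a, rfl⟩ := IsLocalRing.residue_surjective x
    exact ⟨a, rfl⟩
  isArtinian := inferInstance

/-- The matrix of the residual representation in the chosen basis. -/
noncomputable def rbarHom : GQ →* Matrix (Fin 2) (Fin 2) (ResidueField 𝒪) :=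
  matOfBasis (GaloisRepAdic.ofResidualGaloisRep ρbar) D.b

lemma rbarHom_apply (g : GQ) (i j : Fin 2) :
    rbarHom D g i j = residue 𝒪 (D.lift g i j) := by
  rw [D.lift_spec]; rfl

lemma rbarHom_eq : (⇑(rbarHom D) : GQ → Matrix (Fin 2) (Fin 2) (ResidueField 𝒪)) =
    fun g => (D.lift g).map (algebraMap 𝒪 (ResidueField 𝒪)) := by
  funext g
  ext i j
  rw [rbarHom_apply]; rfl

lemma isResidual_rbarHom : IsResidual D (rbarHom D) := by
  intro g i j
  rw [rbarHom_apply, IsLocalRing.ResidueField.algebraMap_eq, sub_self]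
  exact Ideal.zero_mem _

lemma isNormal_rbarHom : IsNormal D (rbarHom D) := by
  refine ⟨?_, ?_, ?_⟩
  · rw [rbarHom_eq, linComb_algebraMap, IsLocalRing.ResidueField.algebraMap_eq,
      residue_eq_zero_iff]
    exact D.hx01
  · rw [rbarHom_eq, linComb_algebraMap, IsLocalRing.ResidueField.algebraMap_eq,
      residue_eq_zero_iff]
    exact D.hx10
  · rw [rbarHom_eq, linComb_algebraMap, IsLocalRing.ResidueField.algebraMap_eq,
      ← sub_eq_zero, ← map_one (residue 𝒪), ← map_sub, residue_eq_zero_iff]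
    exact D.hy

theorem FDef_base (h𝒟 : IsDeformationCondition 𝒪 𝒟)
    (hbar : 𝒟 (GaloisRepAdic.ofResidualGaloisRep ρbar)) :
    FDef D 𝒟 (ResidueField 𝒪) (fun x => residue 𝒪 (D.lift x.1 x.2.1 x.2.2)) :=
  ⟨rbarHom D, matCont_matOfBasis _ _, fun g i j => (rbarHom_apply D g i j).symm,
    isResidual_rbarHom D, isNormal_rbarHom D,
    h𝒟.of_isEquiv isArtinianTestAlgebra_residueField
      (isEquiv_symm ⟨ofMatrixMatOfBasisEquiv (GaloisRepAdic.ofResidualGaloisRep ρbar) D.b⟩) hbar⟩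

end Base

end Fermat.Agent.S53

namespace Fermat.Agent.S53

section Tangent

variable {𝒪 : Type} [CommRing 𝒪] [IsLocalRing 𝒪]
variable {ρbar : ResidualGaloisRep (ResidueField 𝒪)}
variable {𝒟 : ∀ ⦃A : Type⦄ [CommRing A] [IsLocalRing A] [Algebra 𝒪 A], GaloisRepAdic A → Prop}
variable (D : RigidData ρbar)

lemma isLocalHom_dualAlg :
    letI := dualAlg 𝒪
    IsLocalHom (algebraMap 𝒪 (DualNumber (ResidueField 𝒪))) := by
  letI := dualAlg 𝒪
  constructor
  intro a ha
  have h1 : algebraMap 𝒪 (DualNumber (ResidueField 𝒪)) a =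
      TrivSqZeroExt.inl (residue 𝒪 a) := rfl
  rw [h1, TrivSqZeroExt.isUnit_iff_isUnit_fst, TrivSqZeroExt.fst_inl] at ha
  exact (isUnit_map_iff (residue 𝒪) a).mp ha

/-- The two ring homomorphisms `k → ResidueField k[ε]` agree. -/
lemma residueField_map_dualAlg_eq :
    letI := dualAlg 𝒪
    haveI := isLocalHom_dualAlg (𝒪 := 𝒪)
    IsLocalRing.ResidueField.map (algebraMap 𝒪 (DualNumber (ResidueField 𝒪))) =
      (IsLocalRing.residue (DualNumber (ResidueField 𝒪))).comp
        (algebraMap (ResidueField 𝒪) (DualNumber (ResidueField 𝒪))) := by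
  letI := dualAlg 𝒪
  haveI := isLocalHom_dualAlg (𝒪 := 𝒪)
  ext x
  obtain ⟨a, rfl⟩ := IsLocalRing.residue_surjective x
  rw [IsLocalRing.ResidueField.map_residue]
  rfl

theorem FDef_tangent_finite (hfin : GaloisRep.TangentFinite 𝒪 ρbar 𝒟) :
    letI : Algebra 𝒪 (DualNumber (ResidueField 𝒪)) := dualAlg 𝒪
    Finite {ξ : XIdx → DualNumber (ResidueField 𝒪) // FDef D 𝒟 (DualNumber (ResidueField 𝒪)) ξ} := by
  letI : Algebra 𝒪 (DualNumber (ResidueField 𝒪)) := dualAlg 𝒪
  haveI := isLocalHom_dualAlg (𝒪 := 𝒪)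
  unfold TangentFinite at hfin
  have key : ∀ ξ : {ξ : XIdx → DualNumber (ResidueField 𝒪) //
      FDef D 𝒟 (DualNumber (ResidueField 𝒪)) ξ},
      ∃ (r : GQ →* Matrix (Fin 2) (Fin 2) (DualNumber (ResidueField 𝒪))) (hr : MatCont r),
        (∀ g i j, ξ.1 (g, i, j) = r g i j) ∧ IsResidual D r ∧ IsNormal D r ∧
          𝒟 (ofMatrix r hr) := fun ξ => ξ.2
  choose r hr hent hres hnorm hD using key
  have hresid : ∀ ξ, (ofMatrix (r ξ) (hr ξ)).residual.IsEquiv
      (ρbar.baseChangeAlong ((IsLocalRing.residue (DualNumber (ResidueField 𝒪))).comp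
        (algebraMap (ResidueField 𝒪) (DualNumber (ResidueField 𝒪))))) := by
    intro ξ
    have := residual_ofMatrix_isEquiv D (r ξ) (hr ξ) (hres ξ)
    rw [residueField_map_dualAlg_eq] at this
    exact this
  refine @Finite.of_injective _ _ hfin
    (fun ξ => Quotient.mk _ ⟨ofMatrix (r ξ) (hr ξ), hD ξ, hresid ξ⟩) ?_
  intro ξ ξ' h
  have h1 : (ofMatrix (r ξ) (hr ξ)).IsEquiv (ofMatrix (r ξ') (hr ξ')) := Quotient.exact h
  have h2 := normal_form_unique D _ _ _ _ (hres ξ) (hnorm ξ) (hres ξ') (hnorm ξ') h1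
  apply Subtype.ext
  funext x
  obtain ⟨g, i, j⟩ := x
  rw [hent ξ, hent ξ', h2]

end Tangent

section Final

variable {𝒪 : Type} [CommRing 𝒪] [IsLocalRing 𝒪]
variable {ρbar : ResidualGaloisRep (ResidueField 𝒪)}
variable {𝒟 : ∀ ⦃A : Type⦄ [CommRing A] [IsLocalRing A] [Algebra 𝒪 A], GaloisRepAdic A → Prop}

/-- Package B: the rigidified deformation functor satisfies the axioms. -/
theorem functorAxioms_FDef (D : RigidData ρbar)
    (h𝒟 : GaloisRep.IsDeformationCondition 𝒪 𝒟)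
    (hbar : 𝒟 (GaloisRepAdic.ofResidualGaloisRep ρbar))
    (hfin : GaloisRep.TangentFinite 𝒪 ρbar 𝒟) :
    FunctorAxioms 𝒪 XIdx (fun x => D.lift x.1 x.2.1 x.2.2) (FDef D 𝒟) where
  residual := fun A _ _ _ _ ξ h x => FDef_residual D A ξ h x
  map := fun A B _ _ _ _ _ _ hA hB φ hφ ξ h => FDef_map D h𝒟 A B hA hB φ hφ ξ h
  of_injective := fun A B _ _ _ _ _ _ hA hB φ hφ hinj ξ h =>
    FDef_of_injective D h𝒟 A B hA hB φ hφ hinj ξ h
  fibre := fun A B C P _ _ _ _ _ _ _ _ _ _ _ _ hA hB hC hP f g pA pB hpA hpB hfg hinj hsurj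
      ξ h1 h2 =>
    FDef_fibre D h𝒟 A B C P hA hB hC hP f g pA pB hpA hpB hfg hinj hsurj ξ h1 h2
  tangent_finite := FDef_tangent_finite D hfin
  base := FDef_base D h𝒟 hbar

end Final

end Fermat.Agent.S53
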