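import Fermat.Agent.S53.Dict

set_option autoImplicit false

open IsLocalRing GaloisRep
open scoped TensorProduct

namespace Fermat.Agent.S53

section LinComb

variable {𝒪 : Type} [CommRing 𝒪]

lemma linComb_apply {A : Type} [CommRing A] [Algebra 𝒪 A] (x : GQ →₀ 𝒪)
    (r : GQ → Matrix (Fin 2) (Fin 2) A) (i j : Fin 2) :
    linComb x r i j = x.sum fun g c => algebraMap 𝒪 A c * r g i j := by
  unfold linComb Finsupp.sum
  rw [Matrix.sum_apply]
  rfl

lemma linComb_mul_left {A : Type} [CommRing A] [Algebra 𝒪 A] (x : GQ →₀ 𝒪)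
    (r : GQ → Matrix (Fin 2) (Fin 2) A) (M : Matrix (Fin 2) (Fin 2) A) :
    M * linComb x r = linComb x (fun g => M * r g) := by
  unfold linComb Finsupp.sum
  rw [Matrix.mul_sum]
  exact Finset.sum_congr rfl fun g _ => by rw [Matrix.mul_smul]

lemma linComb_mul_right {A : Type} [CommRing A] [Algebra 𝒪 A] (x : GQ →₀ 𝒪)
    (r : GQ → Matrix (Fin 2) (Fin 2) A) (M : Matrix (Fin 2) (Fin 2) A) :
    linComb x r * M = linComb x (fun g => r g * M) := by
  unfold linComb Finsupp.sum
  rw [Matrix.sum_mul]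
  exact Finset.sum_congr rfl fun g _ => by rw [Matrix.smul_mul]

lemma linComb_map {A B : Type} [CommRing A] [Algebra 𝒪 A] [CommRing B] [Algebra 𝒪 B]
    (φ : A →ₐ[𝒪] B) (x : GQ →₀ 𝒪) (r : GQ → Matrix (Fin 2) (Fin 2) A) (i j : Fin 2) :
    linComb x (fun g => (r g).map φ) i j = φ (linComb x r i j) := by
  rw [linComb_apply, linComb_apply]
  unfold Finsupp.sum
  rw [map_sum]
  exact Finset.sum_congr rfl fun g _ => by
    simp only [map_mul, Matrix.map_apply, AlgHom.commutes]

lemma linComb_algebraMap {A : Type} [CommRing A] [Algebra 𝒪 A] (x : GQ →₀ 𝒪)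
    (r : GQ → Matrix (Fin 2) (Fin 2) 𝒪) (i j : Fin 2) :
    linComb x (fun g => (r g).map (algebraMap 𝒪 A)) i j = algebraMap 𝒪 A (linComb x r i j) := by
  rw [linComb_apply, linComb_apply]
  unfold Finsupp.sum
  rw [map_sum]
  exact Finset.sum_congr rfl fun g _ => by
    simp only [map_mul, Matrix.map_apply, Algebra.algebraMap_self, RingHom.id_apply]

lemma linComb_sub_mem {A : Type} [CommRing A] [Algebra 𝒪 A] (I : Ideal A) (x : GQ →₀ 𝒪)
    (r r' : GQ → Matrix (Fin 2) (Fin 2) A) (h : ∀ g i j, r g i j - r' g i j ∈ I) (i j : Fin 2) :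
    linComb x r i j - linComb x r' i j ∈ I := by
  rw [linComb_apply, linComb_apply]
  unfold Finsupp.sum
  rw [← Finset.sum_sub_distrib]
  exact Ideal.sum_mem _ fun g _ => by
    rw [← mul_sub]
    exact Ideal.mul_mem_left _ _ (h g i j)

end LinComb

section Unique

variable {𝒪 : Type} [CommRing 𝒪] [IsLocalRing 𝒪]
variable {ρbar : ResidualGaloisRep (ResidueField 𝒪)}

lemma IsResidual.linComb_sub_mem (D : RigidData ρbar) {A : Type} [CommRing A] [IsLocalRing A]
    [Algebra 𝒪 A] {r : GQ → Matrix (Fin 2) (Fin 2) A} (hres : IsResidual D r)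
    (x : GQ →₀ 𝒪) (i j : Fin 2) :
    linComb x r i j - algebraMap 𝒪 A (linComb x D.lift i j) ∈ maximalIdeal A := by
  rw [← linComb_algebraMap]
  exact Fermat.Agent.S53.linComb_sub_mem _ x r _ (fun g i j => hres g i j) i j

/-- For a residual matrix family, the difference of the diagonal entries of `r(x)` is a unit. -/
lemma IsResidual.isUnit_diag_sub (D : RigidData ρbar) {A : Type} [CommRing A] [IsLocalRing A]
    [Algebra 𝒪 A] {r r' : GQ → Matrix (Fin 2) (Fin 2) A} (hres : IsResidual D r)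
    (hres' : IsResidual D r') :
    IsUnit (linComb D.x r 0 0 - linComb D.x r' 1 1) := by
  have h0 := hres.linComb_sub_mem D D.x 0 0
  have h1 := hres'.linComb_sub_mem D D.x 1 1
  have hu : IsUnit (algebraMap 𝒪 A (linComb D.x D.lift 0 0 - linComb D.x D.lift 1 1)) :=
    D.hx.map (algebraMap 𝒪 A)
  have : linComb D.x r 0 0 - linComb D.x r' 1 1 =
      algebraMap 𝒪 A (linComb D.x D.lift 0 0 - linComb D.x D.lift 1 1) +
        ((linComb D.x r 0 0 - algebraMap 𝒪 A (linComb D.x D.lift 0 0)) -
          (linComb D.x r' 1 1 - algebraMap 𝒪 A (linComb D.x D.lift 1 1))) := by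
    rw [map_sub]; ring
  rw [this]
  by_contra hnu
  have hmem : algebraMap 𝒪 A (linComb D.x D.lift 0 0 - linComb D.x D.lift 1 1) +
        ((linComb D.x r 0 0 - algebraMap 𝒪 A (linComb D.x D.lift 0 0)) -
          (linComb D.x r' 1 1 - algebraMap 𝒪 A (linComb D.x D.lift 1 1))) ∈ maximalIdeal A :=
    (mem_maximalIdeal _).mpr hnu
  have := (Ideal.add_mem_iff_left _ (Ideal.sub_mem _ h0 h1)).mp hmem
  exact (mem_maximalIdeal _).mp this hu

/-- matrix form of the uniqueness of the normal form -/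
theorem normal_form_unique_matrix (D : RigidData ρbar) {A : Type} [CommRing A] [IsLocalRing A]
    [Algebra 𝒪 A]
    (r r' : GQ → Matrix (Fin 2) (Fin 2) A)
    (h1 : IsResidual D r) (h2 : IsNormal D r) (h1' : IsResidual D r') (h2' : IsNormal D r')
    (M : Matrix (Fin 2) (Fin 2) A) (hM : IsUnit M.det)
    (h : ∀ g, M * r g = r' g * M) : r = r' := by
  have hx : M * linComb D.x r = linComb D.x r' * M := by
    rw [linComb_mul_left, linComb_mul_right]
    congr 1; funext g; exact h g
  have hy : M * linComb D.y r = linComb D.y r' * M := by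
    rw [linComb_mul_left, linComb_mul_right]
    congr 1; funext g; exact h g
  obtain ⟨n01, n10, ny⟩ := h2
  obtain ⟨n01', n10', ny'⟩ := h2'
  -- entry (0,1)
  have e01 := congrFun (congrFun hx 0) 1
  have e10 := congrFun (congrFun hx 1) 0
  simp only [Matrix.mul_apply, Fin.sum_univ_two] at e01 e10
  rw [n01, n01'] at e01
  rw [n10, n10'] at e10
  have hM01 : M 0 1 = 0 := by
    have hu := (h1'.isUnit_diag_sub D h1)
    have : (linComb D.x r' 0 0 - linComb D.x r 1 1) * M 0 1 = 0 := by
      linear_combination -e01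
    exact (hu.mul_right_eq_zero).mp this
  have hM10 : M 1 0 = 0 := by
    have hu := (h1.isUnit_diag_sub D h1')
    have : (linComb D.x r 0 0 - linComb D.x r' 1 1) * M 1 0 = 0 := by
      linear_combination e10
    exact (hu.mul_right_eq_zero).mp this
  have hdet : M.det = M 0 0 * M 1 1 := by
    rw [Matrix.det_fin_two, hM01, hM10]; ring
  rw [hdet] at hM
  have hu0 : IsUnit (M 0 0) := isUnit_of_mul_isUnit_left hM
  have hu1 : IsUnit (M 1 1) := isUnit_of_mul_isUnit_right hM
  have ey := congrFun (congrFun hy 0) 1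
  simp only [Matrix.mul_apply, Fin.sum_univ_two] at ey
  rw [ny, ny', hM01] at ey
  have huv : M 0 0 = M 1 1 := by linear_combination ey
  funext g
  have hg := h g
  ext i j
  have e := congrFun (congrFun hg i) j
  simp only [Matrix.mul_apply, Fin.sum_univ_two] at e
  fin_cases i <;> fin_cases j <;>
    simp only [Fin.zero_eta, Fin.mk_one, Fin.isValue, hM01, hM10, mul_zero, zero_mul, add_zero,
      zero_add] at e ⊢
  · have : M 0 0 * (r g 0 0 - r' g 0 0) = 0 := by linear_combination e
    exact sub_eq_zero.mp ((hu0.mul_right_eq_zero).mp this)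
  · have : M 0 0 * (r g 0 1 - r' g 0 1) = 0 := by linear_combination e - (r' g 0 1) * huv
    exact sub_eq_zero.mp ((hu0.mul_right_eq_zero).mp this)
  · have : M 1 1 * (r g 1 0 - r' g 1 0) = 0 := by linear_combination e + (r' g 1 0) * huv
    exact sub_eq_zero.mp ((hu1.mul_right_eq_zero).mp this)
  · have : M 1 1 * (r g 1 1 - r' g 1 1) = 0 := by linear_combination e
    exact sub_eq_zero.mp ((hu1.mul_right_eq_zero).mp this)

/-- D4: uniqueness of the normal form. -/
theorem normal_form_unique (D : RigidData ρbar) {A : Type} [CommRing A] [IsLocalRing A]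
    [Algebra 𝒪 A]
    (r r' : GQ →* Matrix (Fin 2) (Fin 2) A) (hr : MatCont r) (hr' : MatCont r')
    (h1 : IsResidual D r) (h2 : IsNormal D r) (h1' : IsResidual D r') (h2' : IsNormal D r')
    (h : (ofMatrix r hr).IsEquiv (ofMatrix r' hr')) : r = r' := by
  obtain ⟨e⟩ := h
  let E : (Fin 2 → A) ≃ₗ[A] (Fin 2 → A) := e.toLinearEquiv
  have hE : ∀ σ v, E ((r σ).mulVec v) = (r' σ).mulVec (E v) := fun σ v => e.map_apply σ v
  let M : Matrix (Fin 2) (Fin 2) A := LinearMap.toMatrix' (E : (Fin 2 → A) →ₗ[A] (Fin 2 → A))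
  have hMv : ∀ v, M.mulVec v = E v := fun v => by
    show (LinearMap.toMatrix' (E : (Fin 2 → A) →ₗ[A] (Fin 2 → A))).mulVec v = E v
    rw [← Matrix.toLin'_apply, Matrix.toLin'_toMatrix']; rfl
  have hMdet : IsUnit M.det := by
    have := LinearEquiv.isUnit_det' E
    rw [← LinearMap.det_toMatrix'] at this
    exact this
  have hcomm : ∀ g, M * r g = r' g * M := by
    intro g
    apply Matrix.toLin'.injective
    refine LinearMap.ext fun v => ?_
    rw [Matrix.toLin'_apply, Matrix.toLin'_apply, ← Matrix.mulVec_mulVec, ← Matrix.mulVec_mulVec,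
      hMv, hMv, hE]
  have := normal_form_unique_matrix D (fun g => r g) (fun g => r' g) h1 h2 h1' h2' M hMdet hcomm
  exact MonoidHom.ext fun g => congrFun this g

end Unique

end Fermat.Agent.S53
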