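import Fermat.Agent.S53.Burnside
import Fermat.Agent.S53.Normal

set_option autoImplicit false
set_option linter.style.haveILetI false
set_option linter.unusedSectionVars false

open IsLocalRing GaloisRep Matrix
open scoped TensorProduct

namespace Fermat.Agent.S53

section Translate

/-- An irreducible family of endomorphisms has no common eigenvector (matrix form, after base
change). -/
lemma no_common_eigenvector_of_irreducible {k L V : Type} [Field k] [Field L] [Algebra k L]
    [AddCommGroup V] [Module k V] (b : Module.Basis (Fin 2) k V) {G : Type} (f : G → Module.End k V)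
    (hirr : ∀ W : Submodule L (L ⊗[k] V),
      (∀ σ : G, ∀ x ∈ W, (f σ).baseChange L x ∈ W) → W = ⊥ ∨ W = ⊤)
    (v : Fin 2 → L) (hv : v ≠ 0) :
    ¬ ∀ s ∈ Set.range (fun g => LinearMap.toMatrix b b (f g)),
      ∃ c : L, (s.map (algebraMap k L)) *ᵥ v = c • v := by
  intro hS
  set bL := Algebra.TensorProduct.basis L b with hbL
  set w : L ⊗[k] V := bL.equivFun.symm v with hwdef
  have hrepr : ⇑(bL.repr w) = v := by
    have := bL.equivFun.apply_symm_apply v
    rw [← hwdef] at this
    rw [← this]
    rfl
  have hw : w ≠ 0 := by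
    intro h
    apply hv
    rw [← hrepr, h]
    simp
  have key : ∀ g, ∃ c : L, (f g).baseChange L w = c • w := by
    intro g
    obtain ⟨c, hc⟩ := hS _ ⟨g, rfl⟩
    refine ⟨c, ?_⟩
    apply bL.repr.injective
    apply DFunLike.coe_injective
    have h1 := LinearMap.toMatrix_mulVec_repr bL bL ((f g).baseChange L) w
    rw [hbL, LinearMap.toMatrix_baseChange, ← hbL, hrepr] at h1
    rw [← h1]
    simp only at hc
    rw [hc, map_smul, Finsupp.coe_smul, hrepr]
  rcases hirr (L ∙ w) (by
    intro σ x hx
    obtain ⟨a, rfl⟩ := Submodule.mem_span_singleton.mp hx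
    obtain ⟨c, hc⟩ := key σ
    rw [map_smul, hc]
    exact Submodule.smul_mem _ _ (Submodule.smul_mem _ _ (Submodule.mem_span_singleton_self w)))
    with h | h
  · apply hw
    have : w ∈ (L ∙ w) := Submodule.mem_span_singleton_self w
    rw [h] at this
    exact (Submodule.mem_bot L).mp this
  · have h1 : Module.finrank L (L ∙ w) = 1 := finrank_span_singleton hw
    rw [h, finrank_top, Module.finrank_eq_card_basis bL] at h1
    simp at h1

end Translate

section Rigid

variable {𝒪 : Type} [CommRing 𝒪] [IsLocalRing 𝒪]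
variable {ρbar : ResidualGaloisRep (ResidueField 𝒪)}

/-- Burnside: the matrices of an absolutely irreducible residual representation span the full
matrix algebra. -/
theorem span_range_toMatrix_eq_top (habs : ρbar.IsAbsolutelyIrreducible)
    (b : Module.Basis (Fin 2) (ResidueField 𝒪) ρbar.V) :
    Submodule.span (ResidueField 𝒪)
      (Set.range (fun g : GQ => LinearMap.toMatrix b b (ρbar.ρ g))) = ⊤ := by
  apply span_eq_top_of_no_common_eigenvector (L := AlgebraicClosure (ResidueField 𝒪))
  · exact ⟨1, by simp⟩
  · rintro _ ⟨g, rfl⟩ _ ⟨h, rfl⟩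
    exact ⟨g * h, by simp [LinearMap.toMatrix_mul]⟩
  · intro v hv
    exact no_common_eigenvector_of_irreducible b (fun g => ρbar.ρ g) habs v hv

/-- Every residual matrix is the reduction of a linear combination of the lifted matrices. -/
lemma exists_linComb_residue (habs : ρbar.IsAbsolutelyIrreducible)
    (b : Module.Basis (Fin 2) (ResidueField 𝒪) ρbar.V)
    (lift : GQ → Matrix (Fin 2) (Fin 2) 𝒪)
    (lift_spec : ∀ g i j, residue 𝒪 (lift g i j) = LinearMap.toMatrix b b (ρbar.ρ g) i j)
    (M : Matrix (Fin 2) (Fin 2) (ResidueField 𝒪)) :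
    ∃ x : GQ →₀ 𝒪, ∀ i j, residue 𝒪 (linComb x lift i j) = M i j := by
  have hM : M ∈ Submodule.span (ResidueField 𝒪)
      (Set.range (fun g : GQ => LinearMap.toMatrix b b (ρbar.ρ g))) := by
    rw [span_range_toMatrix_eq_top habs b]
    exact Submodule.mem_top
  obtain ⟨c, hc⟩ := Finsupp.mem_span_range_iff_exists_finsupp.mp hM
  obtain ⟨x, rfl⟩ := Finsupp.mapRange_surjective (residue 𝒪) (map_zero _) residue_surjective c
  refine ⟨x, fun i j => ?_⟩
  have h2 : (Finsupp.mapRange (residue 𝒪) (map_zero _) x).sum
      (fun g a => a • LinearMap.toMatrix b b (ρbar.ρ g)) =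
      x.sum (fun g a => residue 𝒪 a • LinearMap.toMatrix b b (ρbar.ρ g)) :=
    Finsupp.sum_mapRange_index (fun g => zero_smul _ _)
  have h3 : M i j = x.sum (fun g a => residue 𝒪 a * LinearMap.toMatrix b b (ρbar.ρ g) i j) := by
    rw [← hc, h2]
    unfold Finsupp.sum
    rw [Matrix.sum_apply]
    rfl
  rw [h3, linComb_apply]
  unfold Finsupp.sum
  rw [map_sum]
  refine Finset.sum_congr rfl fun g _ => ?_
  rw [map_mul, lift_spec]
  rfl

/-- Rigidification data exist for an absolutely irreducible residual representation. -/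
theorem exists_rigidData (habs : ρbar.IsAbsolutelyIrreducible) : Nonempty (RigidData ρbar) := by
  let b : Module.Basis (Fin 2) (ResidueField 𝒪) ρbar.V :=
    Module.finBasisOfFinrankEq _ _ ρbar.finrank_eq
  choose lift hlift using fun (g : GQ) (i j : Fin 2) =>
    residue_surjective (R := 𝒪) (LinearMap.toMatrix b b (ρbar.ρ g) i j)
  obtain ⟨x, hx⟩ := exists_linComb_residue habs b lift hlift (Matrix.single 0 0 1)
  obtain ⟨y, hy⟩ := exists_linComb_residue habs b lift hlift (Matrix.single 0 1 1)
  refine ⟨{ b := b, lift := lift, lift_spec := hlift, x := x, y := y, hx01 := ?_, hx10 := ?_,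
            hx := ?_, hy := ?_ }⟩
  · rw [← residue_eq_zero_iff, hx]
    simp
  · rw [← residue_eq_zero_iff, hx]
    simp
  · rw [← residue_ne_zero_iff_isUnit, map_sub, hx, hx]
    simp
  · rw [← residue_eq_zero_iff, map_sub, hy]
    simp

end Rigid

end Fermat.Agent.S53
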