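import Mathlib

set_option autoImplicit false
set_option linter.style.haveILetI false
set_option linter.unusedSectionVars false

open Matrix

namespace Fermat.Agent.S53

section Burnside

variable {K : Type*} [Field K]

/-- The kernel of a nonzero `2 × 2` matrix is at most a line. -/
lemma mulVec_ker_line (N : Matrix (Fin 2) (Fin 2) K) (hN : N ≠ 0) (v w : Fin 2 → K) (hv : v ≠ 0)
    (hNv : N *ᵥ v = 0) (hNw : N *ᵥ w = 0) : ∃ c : K, w = c • v := by
  have e1 : N 0 0 * v 0 + N 0 1 * v 1 = 0 := by
    have := congrFun hNv 0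
    simpa [Matrix.mulVec, dotProduct, Fin.sum_univ_two] using this
  have e2 : N 1 0 * v 0 + N 1 1 * v 1 = 0 := by
    have := congrFun hNv 1
    simpa [Matrix.mulVec, dotProduct, Fin.sum_univ_two] using this
  have e3 : N 0 0 * w 0 + N 0 1 * w 1 = 0 := by
    have := congrFun hNw 0
    simpa [Matrix.mulVec, dotProduct, Fin.sum_univ_two] using this
  have e4 : N 1 0 * w 0 + N 1 1 * w 1 = 0 := by
    have := congrFun hNw 1
    simpa [Matrix.mulVec, dotProduct, Fin.sum_univ_two] using this
  have hdet : v 0 * w 1 - v 1 * w 0 = 0 := by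
    by_contra hd
    apply hN
    have h00 : N 0 0 * (v 0 * w 1 - v 1 * w 0) = 0 := by linear_combination w 1 * e1 - v 1 * e3
    have h01 : N 0 1 * (v 0 * w 1 - v 1 * w 0) = 0 := by linear_combination v 0 * e3 - w 0 * e1
    have h10 : N 1 0 * (v 0 * w 1 - v 1 * w 0) = 0 := by linear_combination w 1 * e2 - v 1 * e4
    have h11 : N 1 1 * (v 0 * w 1 - v 1 * w 0) = 0 := by linear_combination v 0 * e4 - w 0 * e2
    have g00 := (mul_eq_zero.mp h00).resolve_right hd
    have g01 := (mul_eq_zero.mp h01).resolve_right hd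
    have g10 := (mul_eq_zero.mp h10).resolve_right hd
    have g11 := (mul_eq_zero.mp h11).resolve_right hd
    ext i j
    fin_cases i <;> fin_cases j <;> simpa
  by_cases hv0 : v 0 = 0
  · have hv1 : v 1 ≠ 0 := by
      intro hv1
      apply hv
      ext i
      fin_cases i <;> simpa
    refine ⟨w 1 / v 1, ?_⟩
    ext i
    fin_cases i
    · simp only [Fin.zero_eta, Pi.smul_apply, smul_eq_mul]
      field_simp
      linear_combination -hdet
    · simp only [Fin.mk_one, Pi.smul_apply, smul_eq_mul]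
      field_simp
  · refine ⟨w 0 / v 0, ?_⟩
    ext i
    fin_cases i
    · simp only [Fin.zero_eta, Pi.smul_apply, smul_eq_mul]
      field_simp
    · simp only [Fin.mk_one, Pi.smul_apply, smul_eq_mul]
      field_simp
      linear_combination hdet

/-- A set of pairwise commuting `2 × 2` matrices over an algebraically closed field has a common
eigenvector. -/
lemma exists_common_eigenvector_of_commute [IsAlgClosed K] (S : Set (Matrix (Fin 2) (Fin 2) K))
    (hcomm : ∀ s ∈ S, ∀ t ∈ S, s * t = t * s) :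
    ∃ v : Fin 2 → K, v ≠ 0 ∧ ∀ s ∈ S, ∃ c : K, s *ᵥ v = c • v := by
  by_cases hsc : ∀ s ∈ S, ∃ c : K, s = c • (1 : Matrix (Fin 2) (Fin 2) K)
  · refine ⟨Pi.single 0 1, ?_, fun s hs => ?_⟩
    · intro h
      have := congrFun h 0
      simp at this
    · obtain ⟨c, rfl⟩ := hsc s hs
      exact ⟨c, by rw [Matrix.smul_mulVec, Matrix.one_mulVec]⟩
  · push Not at hsc
    obtain ⟨s₀, hs₀, hns⟩ := hsc
    obtain ⟨μ, hμ⟩ := Module.End.exists_eigenvalue (Matrix.mulVecLin s₀)
    obtain ⟨v, hv⟩ := hμ.exists_hasEigenvector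
    have hv0 : v ≠ 0 := hv.2
    have hsv : s₀ *ᵥ v = μ • v := by
      have := hv.apply_eq_smul
      simpa using this
    set N : Matrix (Fin 2) (Fin 2) K := s₀ - μ • 1 with hNdef
    have hN : N ≠ 0 := by
      intro h
      exact hns μ (sub_eq_zero.mp h)
    have hNv : N *ᵥ v = 0 := by
      rw [hNdef, Matrix.sub_mulVec, hsv, Matrix.smul_mulVec, Matrix.one_mulVec, sub_self]
    refine ⟨v, hv0, fun s hs => ?_⟩
    have hc : N * s = s * N := by
      rw [hNdef, sub_mul, mul_sub, hcomm s₀ hs₀ s hs]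
      simp
    have hNsv : N *ᵥ (s *ᵥ v) = 0 := by
      rw [Matrix.mulVec_mulVec, hc, ← Matrix.mulVec_mulVec, hNv, Matrix.mulVec_zero]
    exact mulVec_ker_line N hN v (s *ᵥ v) hv0 hNv hNsv

/-- If `s`, `t` do not commute then `1, s, t` are linearly independent. -/
lemma linearIndependent_one_of_not_commute (s t : Matrix (Fin 2) (Fin 2) K)
    (hst : s * t ≠ t * s) :
    LinearIndependent K ![(1 : Matrix (Fin 2) (Fin 2) K), s, t] := by
  rw [Fintype.linearIndependent_iff]
  intro g hg
  rw [Fin.sum_univ_three] at hg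
  simp only [Matrix.cons_val_zero, Matrix.cons_val_one, Matrix.cons_val] at hg
  have h2 : g 2 = 0 := by
    by_contra h2
    apply hst
    have ht : t = (-(g 2)⁻¹) • (g 0 • (1 : Matrix (Fin 2) (Fin 2) K) + g 1 • s) := by
      have : g 2 • t = -(g 0 • (1 : Matrix (Fin 2) (Fin 2) K) + g 1 • s) := by
        rw [eq_neg_iff_add_eq_zero, add_comm]
        exact hg
      rw [neg_smul, ← smul_neg, ← this, smul_smul, inv_mul_cancel₀ h2, one_smul]
    rw [ht]
    simp only [Matrix.mul_smul, Matrix.smul_mul, mul_add, add_mul, Matrix.mul_one, Matrix.one_mul]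
  rw [h2, zero_smul, add_zero] at hg
  have h1 : g 1 = 0 := by
    by_contra h1
    apply hst
    have hs : s = (-(g 1)⁻¹) • (g 0 • (1 : Matrix (Fin 2) (Fin 2) K)) := by
      have : g 1 • s = -(g 0 • (1 : Matrix (Fin 2) (Fin 2) K)) := by
        rw [eq_neg_iff_add_eq_zero, add_comm]
        exact hg
      rw [neg_smul, ← smul_neg, ← this, smul_smul, inv_mul_cancel₀ h1, one_smul]
    rw [hs]
    simp only [Matrix.mul_smul, Matrix.smul_mul, Matrix.mul_one, Matrix.one_mul]
  rw [h1, zero_smul, add_zero] at hg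
  have h0 : g 0 = 0 := by
    have := congrFun (congrFun hg 0) 0
    simpa using this
  intro i
  fin_cases i
  · exact h0
  · exact h1
  · exact h2

/-- Non-commutative case of Burnside's theorem for `2 × 2` matrices: a multiplicatively closed
set of matrices which does not span and contains two non-commuting elements has a common
eigenvector. -/
lemma exists_common_eigenvector_of_not_commute (S : Set (Matrix (Fin 2) (Fin 2) K))
    (hone : (1 : Matrix (Fin 2) (Fin 2) K) ∈ S) (hspan : Submodule.span K S ≠ ⊤)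
    (s t : Matrix (Fin 2) (Fin 2) K) (hs : s ∈ S) (ht : t ∈ S) (hst_mem : s * t ∈ S)
    (hst : s * t ≠ t * s) :
    ∃ v : Fin 2 → K, v ≠ 0 ∧ ∀ u ∈ S, ∃ c : K, u *ᵥ v = c • v := by
  have hli := linearIndependent_one_of_not_commute s t hst
  have hQ : Submodule.span K ({1, s, t} : Set (Matrix (Fin 2) (Fin 2) K)) = Submodule.span K S := by
    apply Submodule.eq_of_le_of_finrank_le
    · apply Submodule.span_mono
      intro u hu
      rcases hu with rfl | rfl | rfl
      · exact hone
      · exact hs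
      · exact ht
    · have h3 : Module.finrank K
          (Submodule.span K ({1, s, t} : Set (Matrix (Fin 2) (Fin 2) K))) = 3 := by
        have hr : Set.range ![(1 : Matrix (Fin 2) (Fin 2) K), s, t] = {1, s, t} := by
          ext u
          simp only [Set.mem_range, Set.mem_insert_iff, Set.mem_singleton_iff]
          constructor
          · rintro ⟨i, rfl⟩
            fin_cases i
            · exact Or.inl rfl
            · exact Or.inr (Or.inl rfl)
            · exact Or.inr (Or.inr rfl)
          · rintro (rfl | rfl | rfl)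
            · exact ⟨0, rfl⟩
            · exact ⟨1, rfl⟩
            · exact ⟨2, rfl⟩
        have := finrank_span_eq_card hli
        rw [hr] at this
        simpa using this
      have h4 := Submodule.finrank_lt hspan
      rw [Module.finrank_matrix] at h4
      simp only [Fintype.card_fin, Module.finrank_self, mul_one] at h4
      omega
  have hmem : ∀ u ∈ S, ∃ a b c : K, a • (1 : Matrix (Fin 2) (Fin 2) K) + b • s + c • t = u := by
    intro u hu
    have : u ∈ Submodule.span K ({1, s, t} : Set (Matrix (Fin 2) (Fin 2) K)) :=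
      hQ ▸ Submodule.subset_span hu
    exact Submodule.mem_span_triple.mp this
  obtain ⟨α, β, γ, hαβγ⟩ := hmem (s * t) hst_mem
  have hs't' : (s - γ • 1) * (t - β • 1) = (α + β * γ) • (1 : Matrix (Fin 2) (Fin 2) K) := by
    rw [sub_mul, mul_sub, mul_sub, ← hαβγ]
    simp only [Matrix.mul_smul, Matrix.smul_mul, Matrix.mul_one, Matrix.one_mul, add_smul,
      smul_smul]
    abel
  have hcomm' : (t - β • 1) * (s - γ • 1) - (s - γ • 1) * (t - β • 1) = t * s - s * t := by
    rw [sub_mul, mul_sub, mul_sub, sub_mul, mul_sub, mul_sub]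
    simp only [Matrix.mul_smul, Matrix.smul_mul, Matrix.mul_one, Matrix.one_mul, smul_smul]
    rw [mul_comm γ β]
    abel
  have hd : α + β * γ = 0 := by
    by_contra hd
    apply hst
    have h1 : (s - γ • 1) * ((α + β * γ)⁻¹ • (t - β • 1)) = 1 := by
      rw [Matrix.mul_smul, hs't', smul_smul, inv_mul_cancel₀ hd, one_smul]
    have h2 := mul_eq_one_comm.mp h1
    rw [Matrix.smul_mul] at h2
    have h3 : (t - β • 1) * (s - γ • 1) = (α + β * γ) • (1 : Matrix (Fin 2) (Fin 2) K) := by
      have h2' := congrArg (fun M => (α + β * γ) • M) h2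
      simp only [smul_smul, mul_inv_cancel₀ hd, one_smul] at h2'
      exact h2'
    rw [h3, hs't', sub_self] at hcomm'
    exact (sub_eq_zero.mp hcomm'.symm).symm
  rw [hd, zero_smul] at hs't'
  have ht' : t - β • (1 : Matrix (Fin 2) (Fin 2) K) ≠ 0 := by
    intro h
    rw [h, zero_mul, mul_zero, sub_zero] at hcomm'
    exact hst (sub_eq_zero.mp hcomm'.symm).symm
  have hs' : s - γ • (1 : Matrix (Fin 2) (Fin 2) K) ≠ 0 := by
    intro h
    rw [h, zero_mul, mul_zero, sub_zero] at hcomm'
    exact hst (sub_eq_zero.mp hcomm'.symm).symm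
  obtain ⟨j, hj⟩ : ∃ j, (t - β • (1 : Matrix (Fin 2) (Fin 2) K)) *ᵥ (Pi.single j 1) ≠ 0 := by
    by_contra h
    push Not at h
    apply ht'
    ext i j
    have := congrFun (h j) i
    simpa [Matrix.mulVec_single_one] using this
  set v : Fin 2 → K := (t - β • (1 : Matrix (Fin 2) (Fin 2) K)) *ᵥ (Pi.single j 1) with hvdef
  have hs'v : (s - γ • (1 : Matrix (Fin 2) (Fin 2) K)) *ᵥ v = 0 := by
    rw [hvdef, Matrix.mulVec_mulVec, hs't', Matrix.zero_mulVec]
  have hsv : s *ᵥ v = γ • v := by
    rw [Matrix.sub_mulVec, Matrix.smul_mulVec, Matrix.one_mulVec, sub_eq_zero] at hs'v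
    exact hs'v
  have htt' : t * (t - β • (1 : Matrix (Fin 2) (Fin 2) K)) = (t - β • 1) * t := by
    rw [mul_sub, sub_mul]
    simp only [Matrix.mul_smul, Matrix.smul_mul, Matrix.mul_one, Matrix.one_mul]
  have hs'tv : (s - γ • (1 : Matrix (Fin 2) (Fin 2) K)) *ᵥ (t *ᵥ v) = 0 := by
    have h1 : t *ᵥ v = (t - β • (1 : Matrix (Fin 2) (Fin 2) K)) *ᵥ (t *ᵥ (Pi.single j 1)) := by
      rw [hvdef, Matrix.mulVec_mulVec, htt', Matrix.mulVec_mulVec]
    rw [h1, Matrix.mulVec_mulVec, hs't', Matrix.zero_mulVec]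
  obtain ⟨lam, hlam⟩ := mulVec_ker_line _ hs' v (t *ᵥ v) hj hs'v hs'tv
  refine ⟨v, hj, fun u hu => ?_⟩
  obtain ⟨a, b, c, rfl⟩ := hmem u hu
  refine ⟨a + b * γ + c * lam, ?_⟩
  rw [Matrix.add_mulVec, Matrix.add_mulVec, Matrix.smul_mulVec, Matrix.smul_mulVec,
    Matrix.smul_mulVec, Matrix.one_mulVec, hsv, hlam, smul_smul, smul_smul, add_smul, add_smul]

/-- Burnside's theorem for `2 × 2` matrices: a multiplicatively closed set of matrices over `k`
containing `1` and without a common eigenvector over an algebraically closed extension `L`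
spans the full matrix algebra. -/
theorem span_eq_top_of_no_common_eigenvector {k L : Type*} [Field k] [Field L] [Algebra k L]
    [IsAlgClosed L] (S : Set (Matrix (Fin 2) (Fin 2) k))
    (hone : (1 : Matrix (Fin 2) (Fin 2) k) ∈ S) (hmul : ∀ s ∈ S, ∀ t ∈ S, s * t ∈ S)
    (h : ∀ v : Fin 2 → L, v ≠ 0 →
      ¬ ∀ s ∈ S, ∃ c : L, (s.map (algebraMap k L)) *ᵥ v = c • v) :
    Submodule.span k S = ⊤ := by
  by_contra hspan
  by_cases hcomm : ∀ s ∈ S, ∀ t ∈ S, s * t = t * s
  · obtain ⟨v, hv, hS⟩ := exists_common_eigenvector_of_commute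
      ((fun s : Matrix (Fin 2) (Fin 2) k => s.map (algebraMap k L)) '' S) (by
        rintro _ ⟨s, hs, rfl⟩ _ ⟨t, ht, rfl⟩
        simp only
        rw [← Matrix.map_mul, ← Matrix.map_mul, hcomm s hs t ht])
    exact h v hv (fun s hs => hS _ ⟨s, hs, rfl⟩)
  · push Not at hcomm
    obtain ⟨s, hs, t, ht, hst⟩ := hcomm
    obtain ⟨v, hv, hS⟩ := exists_common_eigenvector_of_not_commute S hone hspan s t hs ht
      (hmul s hs t ht) hst
    refine h (fun i => algebraMap k L (v i)) ?_ ?_
    · intro h0
      apply hv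
      ext i
      have := congrFun h0 i
      simpa using this
    · intro u hu
      obtain ⟨c, hc⟩ := hS u hu
      refine ⟨algebraMap k L c, ?_⟩
      ext i
      have h1 := RingHom.map_mulVec (algebraMap k L) u v i
      rw [hc] at h1
      simp only [Pi.smul_apply, smul_eq_mul, map_mul] at h1
      rw [Pi.smul_apply, smul_eq_mul, h1]
      rfl

end Burnside

end Fermat.Agent.S53
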