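import Fermat.Agent.S53.Matrix

set_option autoImplicit false

open IsLocalRing GaloisRep
open scoped TensorProduct

namespace Fermat.Agent.S53

section Abstract

variable (𝒪 : Type) [CommRing 𝒪] [IsLocalRing 𝒪]

/-- The `𝒪`-algebra structure on the dual numbers over the residue field used in `TangentFinite`. -/
@[reducible] noncomputable def dualAlg : Algebra 𝒪 (DualNumber (ResidueField 𝒪)) :=
  ((algebraMap (ResidueField 𝒪) (DualNumber (ResidueField 𝒪))).comp
      (algebraMap 𝒪 (ResidueField 𝒪))).toAlgebra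

/-- Axioms on a "rigid" functor `F` (a family of subsets of `X → A`, for `A` ranging over the
Artinian test algebras) which make it pro-representable by a complete Noetherian local ring. -/
structure FunctorAxioms (X : Type) (ξ₀ : X → 𝒪)
    (F : ∀ (A : Type) [CommRing A] [IsLocalRing A] [Algebra 𝒪 A], (X → A) → Prop) : Prop where
  residual : ∀ (A : Type) [CommRing A] [IsLocalRing A] [Algebra 𝒪 A],
    IsArtinianTestAlgebra 𝒪 A → ∀ ξ : X → A, F A ξ →
      ∀ x, ξ x - algebraMap 𝒪 A (ξ₀ x) ∈ maximalIdeal A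
  map : ∀ (A B : Type) [CommRing A] [IsLocalRing A] [Algebra 𝒪 A]
    [CommRing B] [IsLocalRing B] [Algebra 𝒪 B],
    IsArtinianTestAlgebra 𝒪 A → IsArtinianTestAlgebra 𝒪 B →
    ∀ (φ : A →ₐ[𝒪] B) (_ : IsLocalHom (φ : A →+* B)) (ξ : X → A), F A ξ → F B (φ ∘ ξ)
  of_injective : ∀ (A B : Type) [CommRing A] [IsLocalRing A] [Algebra 𝒪 A]
    [CommRing B] [IsLocalRing B] [Algebra 𝒪 B],
    IsArtinianTestAlgebra 𝒪 A → IsArtinianTestAlgebra 𝒪 B →
    ∀ (φ : A →ₐ[𝒪] B) (_ : IsLocalHom (φ : A →+* B)), Function.Injective φ →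
      ∀ (ξ : X → A), F B (φ ∘ ξ) → F A ξ
  fibre : ∀ (A B C P : Type) [CommRing A] [IsLocalRing A] [Algebra 𝒪 A]
    [CommRing B] [IsLocalRing B] [Algebra 𝒪 B] [CommRing C] [IsLocalRing C] [Algebra 𝒪 C]
    [CommRing P] [IsLocalRing P] [Algebra 𝒪 P],
    IsArtinianTestAlgebra 𝒪 A → IsArtinianTestAlgebra 𝒪 B → IsArtinianTestAlgebra 𝒪 C →
    IsArtinianTestAlgebra 𝒪 P →
    ∀ (f : A →ₐ[𝒪] C) (g : B →ₐ[𝒪] C) (pA : P →ₐ[𝒪] A) (pB : P →ₐ[𝒪] B)
      (_ : IsLocalHom (pA : P →+* A)) (_ : IsLocalHom (pB : P →+* B)),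
      f.comp pA = g.comp pB →
      Function.Injective (fun x => (pA x, pB x)) →
      (∀ a b, f a = g b → ∃ x, pA x = a ∧ pB x = b) →
      ∀ (ξ : X → P), F A (pA ∘ ξ) → F B (pB ∘ ξ) → F P ξ
  tangent_finite :
    letI : Algebra 𝒪 (DualNumber (ResidueField 𝒪)) := dualAlg 𝒪
    Finite {ξ : X → DualNumber (ResidueField 𝒪) // F (DualNumber (ResidueField 𝒪)) ξ}
  base : F (ResidueField 𝒪) (fun x => residue 𝒪 (ξ₀ x))

/-- The conclusion of the abstract pro-representability theorem. -/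
structure UniversalData (X : Type)
    (F : ∀ (A : Type) [CommRing A] [IsLocalRing A] [Algebra 𝒪 A], (X → A) → Prop) :
    Type 1 where
  R : Type
  [instCommRing : CommRing R]
  [instIsLocalRing : IsLocalRing R]
  [instIsNoetherianRing : IsNoetherianRing R]
  [instIsAdicComplete : IsAdicComplete (IsLocalRing.maximalIdeal R) R]
  [instAlgebra : Algebra 𝒪 R]
  [instIsLocalHom : IsLocalHom (algebraMap 𝒪 R)]
  residue_surjective : Function.Surjective (IsLocalRing.residue R ∘ algebraMap 𝒪 R)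
  ξ : X → R
  /-- every Artinian image of the universal family lies in `F` -/
  isF : ∀ (B : Type) [CommRing B] [IsLocalRing B] [Algebra 𝒪 B], IsArtinianTestAlgebra 𝒪 B →
    ∀ (q : R →ₐ[𝒪] B), IsLocalHom (q : R →+* B) → F B (q ∘ ξ)
  /-- universal property with respect to complete Noetherian local `𝒪`-algebras -/
  universal : ∀ (A : Type) [CommRing A] [IsLocalRing A] [IsNoetherianRing A]
      [IsAdicComplete (IsLocalRing.maximalIdeal A) A] [Algebra 𝒪 A] [IsLocalHom (algebraMap 𝒪 A)],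
      Function.Surjective (IsLocalRing.residue A ∘ algebraMap 𝒪 A) →
      ∀ ξA : X → A,
        (∀ (B : Type) [CommRing B] [IsLocalRing B] [Algebra 𝒪 B], IsArtinianTestAlgebra 𝒪 B →
          ∀ (q : A →ₐ[𝒪] B), IsLocalHom (q : A →+* B) → Function.Surjective q → F B (q ∘ ξA)) →
        ∃ φ : R →ₐ[𝒪] A, IsLocalHom (φ : R →+* A) ∧ φ ∘ ξ = ξA
  /-- uniqueness -/
  unique : ∀ (A : Type) [CommRing A] [IsLocalRing A] [IsNoetherianRing A]
      [IsAdicComplete (IsLocalRing.maximalIdeal A) A] [Algebra 𝒪 A] [IsLocalHom (algebraMap 𝒪 A)],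
      Function.Surjective (IsLocalRing.residue A ∘ algebraMap 𝒪 A) →
      ∀ φ φ' : R →ₐ[𝒪] A, IsLocalHom (φ : R →+* A) → IsLocalHom (φ' : R →+* A) →
        φ ∘ ξ = φ' ∘ ξ → φ = φ'

attribute [instance] UniversalData.instCommRing UniversalData.instIsLocalRing
  UniversalData.instIsNoetherianRing UniversalData.instIsAdicComplete
  UniversalData.instAlgebra UniversalData.instIsLocalHom

end Abstract

section Rigid

variable {𝒪 : Type} [CommRing 𝒪] [IsLocalRing 𝒪]

/-- Evaluate a formal `𝒪`-linear combination of group elements on a matrix-valued map. -/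
noncomputable def linComb {A : Type} [CommRing A] [Algebra 𝒪 A] (x : GQ →₀ 𝒪)
    (r : GQ → Matrix (Fin 2) (Fin 2) A) : Matrix (Fin 2) (Fin 2) A :=
  x.sum fun g c => algebraMap 𝒪 A c • r g

/-- Rigidification data for a residual representation: a basis, a set-theoretic lift of the matrix
coefficients to `𝒪`, and two elements `x`, `y` of the group algebra such that `ρbar x` is diagonal
with distinct diagonal entries and `ρbar y` has `(0,1)`-entry `1`. -/
structure RigidData (ρbar : ResidualGaloisRep (ResidueField 𝒪)) where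
  b : Module.Basis (Fin 2) (ResidueField 𝒪) ρbar.V
  lift : GQ → Matrix (Fin 2) (Fin 2) 𝒪
  lift_spec : ∀ g i j, residue 𝒪 (lift g i j) = LinearMap.toMatrix b b (ρbar.ρ g) i j
  x : GQ →₀ 𝒪
  y : GQ →₀ 𝒪
  hx01 : (linComb x lift) 0 1 ∈ maximalIdeal 𝒪
  hx10 : (linComb x lift) 1 0 ∈ maximalIdeal 𝒪
  hx : IsUnit ((linComb x lift) 0 0 - (linComb x lift) 1 1)
  hy : (linComb y lift) 0 1 - 1 ∈ maximalIdeal 𝒪

variable {ρbar : ResidualGaloisRep (ResidueField 𝒪)}

/-- The matrix-valued map reduces to the chosen lift of `ρbar` modulo the maximal ideal. -/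
def IsResidual (D : RigidData ρbar) {A : Type} [CommRing A] [IsLocalRing A] [Algebra 𝒪 A]
    (r : GQ → Matrix (Fin 2) (Fin 2) A) : Prop :=
  ∀ g i j, r g i j - algebraMap 𝒪 A (D.lift g i j) ∈ maximalIdeal A

/-- The normal form conditions. -/
def IsNormal (D : RigidData ρbar) {A : Type} [CommRing A] [Algebra 𝒪 A]
    (r : GQ → Matrix (Fin 2) (Fin 2) A) : Prop :=
  (linComb D.x r) 0 1 = 0 ∧ (linComb D.x r) 1 0 = 0 ∧ (linComb D.y r) 0 1 = 1

/-- The index set of matrix coefficients. -/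
abbrev XIdx : Type := GQ × Fin 2 × Fin 2

/-- The rigidified deformation functor. -/
def FDef (D : RigidData ρbar)
    (𝒟 : ∀ ⦃A : Type⦄ [CommRing A] [IsLocalRing A] [Algebra 𝒪 A], GaloisRepAdic A → Prop)
    (A : Type) [CommRing A] [IsLocalRing A] [Algebra 𝒪 A] (ξ : XIdx → A) : Prop :=
  ∃ (r : GQ →* Matrix (Fin 2) (Fin 2) A) (hr : MatCont r),
    (∀ g i j, ξ (g, i, j) = r g i j) ∧ IsResidual D r ∧ IsNormal D r ∧ 𝒟 (ofMatrix r hr)

end Rigid

end Fermat.Agent.S53
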