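import Fermat.Agent.S53.Defs

set_option autoImplicit false

open IsLocalRing GaloisRep
open scoped TensorProduct

namespace Fermat.Agent.S53

section Dict

variable {A B : Type} [CommRing A] [IsLocalRing A] [CommRing B] [IsLocalRing B]

/-- Push a matrix representation forward along a ring homomorphism. -/
noncomputable def mapHom (φ : A →+* B) (r : GQ →* Matrix (Fin 2) (Fin 2) A) :
    GQ →* Matrix (Fin 2) (Fin 2) B :=
  (φ.mapMatrix : Matrix (Fin 2) (Fin 2) A →+* Matrix (Fin 2) (Fin 2) B).toMonoidHom.comp r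

omit [IsLocalRing A] [IsLocalRing B] in
@[simp] lemma mapHom_apply (φ : A →+* B) (r : GQ →* Matrix (Fin 2) (Fin 2) A) (g : GQ)
    (i j : Fin 2) : mapHom φ r g i j = φ (r g i j) := rfl

omit [IsLocalRing A] [IsLocalRing B] in
lemma mapHom_apply' (φ : A →+* B) (r : GQ →* Matrix (Fin 2) (Fin 2) A) (g : GQ) :
    mapHom φ r g = (r g).map φ := rfl

lemma map_maximalIdeal_pow_le (φ : A →+* B) (hφ : IsLocalHom φ) (n : ℕ) :
    (maximalIdeal A ^ n).map φ ≤ maximalIdeal B ^ n := by
  rw [Ideal.map_pow]
  exact Ideal.pow_right_mono (Ideal.map_le_iff_le_comap.mpr fun a ha =>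
    Ideal.mem_comap.mpr (haveI := hφ; map_nonunit φ a ha)) n

lemma matCont_map (φ : A →+* B) (hφ : IsLocalHom φ) {r : GQ →* Matrix (Fin 2) (Fin 2) A}
    (hr : MatCont r) : MatCont (mapHom φ r) := by
  intro n
  obtain ⟨L, hL, h⟩ := hr n
  refine ⟨L, hL, fun σ hσ i j => ?_⟩
  have h1 : (mapHom φ r σ - 1) i j = φ ((r σ - 1) i j) := by
    simp only [Matrix.sub_apply, mapHom_apply, map_sub]
    congr 1
    by_cases hij : i = j
    · subst hij; simp
    · simp [Matrix.one_apply_ne hij]
  rw [h1]
  exact map_maximalIdeal_pow_le φ hφ n (Ideal.mem_map_of_mem φ (h σ hσ i j))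

omit [IsLocalRing A] [IsLocalRing B] in
lemma piScalarRight_baseChange_mulVecLin [Algebra A B] (M : Matrix (Fin 2) (Fin 2) A)
    (x : B ⊗[A] (Fin 2 → A)) :
    TensorProduct.piScalarRight A B B (Fin 2) ((Matrix.mulVecLin M).baseChange B x) =
      (M.map (algebraMap A B)).mulVec (TensorProduct.piScalarRight A B B (Fin 2) x) := by
  induction x using TensorProduct.induction_on with
  | zero => simp
  | tmul b v =>
    rw [LinearMap.baseChange_tmul]
    ext i
    simp only [TensorProduct.piScalarRight_apply, TensorProduct.piScalarRightHom_tmul,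
      Matrix.mulVecLin_apply, Matrix.mulVec, dotProduct, Matrix.map_apply, Finset.sum_smul]
    refine Finset.sum_congr rfl fun j _ => ?_
    rw [Algebra.smul_def, Algebra.smul_def, map_mul]
    ring
  | add x y hx hy => simp only [map_add, hx, hy, Matrix.mulVec_add]

/-- D1: base change of `ofMatrix` is `ofMatrix` of the pushed-forward matrices. -/
noncomputable def baseChangeAlongOfMatrixEquiv (φ : A →+* B) (hφ : IsLocalHom φ)
    (r : GQ →* Matrix (Fin 2) (Fin 2) A) (hr : MatCont r) :
    GaloisRepAdic.Equiv ((ofMatrix r hr).baseChangeAlong φ hφ)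
      (ofMatrix (mapHom φ r) (matCont_map φ hφ hr)) :=
  letI : Algebra A B := φ.toAlgebra
  { toLinearEquiv := TensorProduct.piScalarRight A B B (Fin 2)
    map_apply := fun σ x => piScalarRight_baseChange_mulVecLin (r σ) x }

theorem baseChangeAlong_ofMatrix_isEquiv (φ : A →+* B) (hφ : IsLocalHom φ)
    (r : GQ →* Matrix (Fin 2) (Fin 2) A) (hr : MatCont r) :
    ((ofMatrix r hr).baseChangeAlong φ hφ).IsEquiv
      (ofMatrix (mapHom φ r) (matCont_map φ hφ hr)) :=
  ⟨baseChangeAlongOfMatrixEquiv φ hφ r hr⟩

end Dict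

end Fermat.Agent.S53

namespace Fermat.Agent.S53

section Residual

lemma equivFun_baseChange {k k' V : Type} [CommRing k] [CommRing k'] [Algebra k k']
    [AddCommGroup V] [Module k V] (b : Module.Basis (Fin 2) k V) (f : V →ₗ[k] V) (w : k' ⊗[k] V) :
    (Algebra.TensorProduct.basis k' b).equivFun (f.baseChange k' w) =
      ((LinearMap.toMatrix b b f).map (algebraMap k k')).mulVec
        ((Algebra.TensorProduct.basis k' b).equivFun w) := by
  rw [← LinearMap.toMatrix_baseChange k' f b b]
  exact (LinearMap.toMatrix_mulVec_repr (Algebra.TensorProduct.basis k' b)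
    (Algebra.TensorProduct.basis k' b) (f.baseChange k') w).symm

/-- raw form of the equivariance needed for D2 -/
lemma residual_equivariant_raw {A k k' V : Type} [CommRing A] [CommRing k] [CommRing k']
    [Algebra A k'] [Algebra k k'] [AddCommGroup V] [Module k V]
    (b : Module.Basis (Fin 2) k V) (f : V →ₗ[k] V) (M : Matrix (Fin 2) (Fin 2) A)
    (h3 : M.map (algebraMap A k') = (LinearMap.toMatrix b b f).map (algebraMap k k'))
    (x : k' ⊗[A] (Fin 2 → A)) :
    ((TensorProduct.piScalarRight A k' k' (Fin 2)).trans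
        (Algebra.TensorProduct.basis k' b).equivFun.symm)
        ((Matrix.mulVecLin M).baseChange k' x) =
      (f.baseChange k') (((TensorProduct.piScalarRight A k' k' (Fin 2)).trans
        (Algebra.TensorProduct.basis k' b).equivFun.symm) x) := by
  have h1 := piScalarRight_baseChange_mulVecLin (B := k') M x
  have h2 := equivFun_baseChange (k' := k') b f
    ((Algebra.TensorProduct.basis k' b).equivFun.symm
      (TensorProduct.piScalarRight A k' k' (Fin 2) x))
  rw [LinearEquiv.apply_symm_apply, ← h3, ← h1] at h2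
  apply (Algebra.TensorProduct.basis k' b).equivFun.injective
  rw [LinearEquiv.trans_apply, LinearEquiv.trans_apply, LinearEquiv.apply_symm_apply, h2]

variable {𝒪 : Type} [CommRing 𝒪] [IsLocalRing 𝒪]
variable {ρbar : ResidualGaloisRep (ResidueField 𝒪)}

lemma IsResidual.residue_eq (D : RigidData ρbar) {A : Type} [CommRing A] [IsLocalRing A]
    [Algebra 𝒪 A] [IsLocalHom (algebraMap 𝒪 A)]
    {r : GQ → Matrix (Fin 2) (Fin 2) A} (hres : IsResidual D r) (g : GQ) (i j : Fin 2) :
    residue A (r g i j) =
      IsLocalRing.ResidueField.map (algebraMap 𝒪 A) (LinearMap.toMatrix D.b D.b (ρbar.ρ g) i j) := by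
  rw [← D.lift_spec, IsLocalRing.ResidueField.map_residue]
  have := hres g i j
  rw [← residue_eq_zero_iff, map_sub, sub_eq_zero] at this
  exact this

/-- D2: the residual representation of `ofMatrix r` is the base change of `ρbar`. -/
noncomputable def residualOfMatrixEquiv (D : RigidData ρbar) {A : Type} [CommRing A]
    [IsLocalRing A] [Algebra 𝒪 A] [IsLocalHom (algebraMap 𝒪 A)]
    (r : GQ →* Matrix (Fin 2) (Fin 2) A) (hr : MatCont r) (hres : IsResidual D r) :
    ResidualGaloisRep.Equiv (ofMatrix r hr).residual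
      (ρbar.baseChangeAlong (IsLocalRing.ResidueField.map (algebraMap 𝒪 A))) :=
  letI : Algebra (ResidueField 𝒪) (ResidueField A) :=
    (IsLocalRing.ResidueField.map (algebraMap 𝒪 A)).toAlgebra
  { toLinearEquiv :=
      (TensorProduct.piScalarRight A (ResidueField A) (ResidueField A) (Fin 2)).trans
        (Algebra.TensorProduct.basis (ResidueField A) D.b).equivFun.symm
    map_apply := fun σ x =>
      residual_equivariant_raw (k' := ResidueField A) D.b (ρbar.ρ σ) (r σ)
        (by
          ext i j
          simp only [Matrix.map_apply]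
          exact hres.residue_eq D σ i j) x }

theorem residual_ofMatrix_isEquiv (D : RigidData ρbar) {A : Type} [CommRing A] [IsLocalRing A]
    [Algebra 𝒪 A] [IsLocalHom (algebraMap 𝒪 A)]
    (r : GQ →* Matrix (Fin 2) (Fin 2) A) (hr : MatCont r) (hres : IsResidual D r) :
    (ofMatrix r hr).residual.IsEquiv
      (ρbar.baseChangeAlong (IsLocalRing.ResidueField.map (algebraMap 𝒪 A))) :=
  ⟨residualOfMatrixEquiv D r hr hres⟩

end Residual

end Fermat.Agent.S53
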