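import Fermat.Agent.S53.Hensel

set_option autoImplicit false

open IsLocalRing GaloisRep Polynomial
open scoped TensorProduct

namespace Fermat.Agent.S53

section Exists

variable {𝒪 : Type} [CommRing 𝒪] [IsLocalRing 𝒪]
variable {ρbar : ResidualGaloisRep (ResidueField 𝒪)}
variable {A : Type} [CommRing A] [IsLocalRing A] [Algebra 𝒪 A] [IsLocalHom (algebraMap 𝒪 A)]

omit [IsLocalRing 𝒪] in
lemma algebraMap_mem_maximalIdeal [IsLocalRing 𝒪] {c : 𝒪} (hc : c ∈ maximalIdeal 𝒪) :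
    algebraMap 𝒪 A c ∈ maximalIdeal A :=
  (mem_maximalIdeal _).mpr (map_nonunit (algebraMap 𝒪 A) c ((mem_maximalIdeal _).mp hc))

lemma isUnit_of_sub_one_mem {β : A} (h : β - 1 ∈ maximalIdeal A) : IsUnit β := by
  by_contra hn
  have hm : β ∈ maximalIdeal A := (mem_maximalIdeal _).mpr hn
  have : (1 : A) ∈ maximalIdeal A := by
    have : (1 : A) = β - (β - 1) := by ring
    rw [this]; exact Ideal.sub_mem _ hm h
  exact (mem_maximalIdeal _).mp this isUnit_one

/-- Stage 1: make `r(x)` diagonal. -/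
lemma exists_conj_diag [HenselianRing A (maximalIdeal A)] (D : RigidData ρbar)
    (r₀ : GQ →* Matrix (Fin 2) (Fin 2) A) (hres₀ : IsResidual D r₀) :
    ∃ (U V : Matrix (Fin 2) (Fin 2) A) (hUV : U * V = 1) (hVU : V * U = 1),
      (∀ i j, (U - 1) i j ∈ maximalIdeal A) ∧
      linComb D.x (conjHom U V hUV hVU r₀) 0 1 = 0 ∧
      linComb D.x (conjHom U V hUV hVU r₀) 1 0 = 0 := by
  set X := linComb D.x r₀ with hX
  have hb : X 0 1 ∈ maximalIdeal A := by
    have h1 := hres₀.linComb_sub_mem D D.x 0 1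
    have h2 : algebraMap 𝒪 A (linComb D.x D.lift 0 1) ∈ maximalIdeal A :=
      algebraMap_mem_maximalIdeal D.hx01
    have : X 0 1 = (linComb D.x r₀ 0 1 - algebraMap 𝒪 A (linComb D.x D.lift 0 1)) +
        algebraMap 𝒪 A (linComb D.x D.lift 0 1) := by rw [hX]; ring
    rw [this]; exact Ideal.add_mem _ h1 h2
  have hc : X 1 0 ∈ maximalIdeal A := by
    have h1 := hres₀.linComb_sub_mem D D.x 1 0
    have h2 : algebraMap 𝒪 A (linComb D.x D.lift 1 0) ∈ maximalIdeal A :=
      algebraMap_mem_maximalIdeal D.hx10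
    have : X 1 0 = (linComb D.x r₀ 1 0 - algebraMap 𝒪 A (linComb D.x D.lift 1 0)) +
        algebraMap 𝒪 A (linComb D.x D.lift 1 0) := by rw [hX]; ring
    rw [this]; exact Ideal.add_mem _ h1 h2
  have hu : IsUnit (X 0 0 - X 1 1) := hres₀.isUnit_diag_sub D hres₀
  obtain ⟨s, t, l₁, l₂, hs, ht, e1, e2, e3, e4⟩ :=
    exists_diagonalise (X 0 0) (X 0 1) (X 1 0) (X 1 1) hb hc hu
  let P : Matrix (Fin 2) (Fin 2) A := !![1, s; t, 1]
  have hdet : IsUnit P.det := by
    have : P.det = 1 - s * t := by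
      simp [P, Matrix.det_fin_two]
    rw [this]
    apply isUnit_of_sub_one_mem
    have : 1 - s * t - 1 = -(s * t) := by ring
    rw [this]
    exact neg_mem (Ideal.mul_mem_right _ _ hs)
  have hXP : X * P = P * Matrix.diagonal ![l₁, l₂] := by
    ext i j
    fin_cases i <;> fin_cases j <;>
      simp [P, Matrix.mul_apply, Fin.sum_univ_two, Matrix.diagonal_apply]
    · linear_combination e1
    · linear_combination e3
    · linear_combination e2
    · linear_combination e4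
  refine ⟨P, P⁻¹, Matrix.mul_nonsing_inv P hdet, Matrix.nonsing_inv_mul P hdet, ?_, ?_, ?_⟩
  · intro i j
    fin_cases i <;> fin_cases j <;> simp [P, hs, ht]
  · rw [linComb_conjHom, ← hX, mul_assoc, hXP, ← mul_assoc, Matrix.nonsing_inv_mul P hdet,
      one_mul]
    simp
  · rw [linComb_conjHom, ← hX, mul_assoc, hXP, ← mul_assoc, Matrix.nonsing_inv_mul P hdet,
      one_mul]
    simp

/-- Stage 2: normalise the `(0,1)` entry of `r(y)`. -/
lemma exists_conj_normal (D : RigidData ρbar)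
    (r₁ : GQ →* Matrix (Fin 2) (Fin 2) A) (hres₁ : IsResidual D r₁)
    (h01 : linComb D.x r₁ 0 1 = 0) (h10 : linComb D.x r₁ 1 0 = 0) :
    ∃ (U V : Matrix (Fin 2) (Fin 2) A) (hUV : U * V = 1) (hVU : V * U = 1),
      (∀ i j, (U - 1) i j ∈ maximalIdeal A) ∧ IsNormal D (conjHom U V hUV hVU r₁) := by
  set β := linComb D.y r₁ 0 1 with hβ
  have hβ1 : β - 1 ∈ maximalIdeal A := by
    have h1 := hres₁.linComb_sub_mem D D.y 0 1
    have h2 : algebraMap 𝒪 A (linComb D.y D.lift 0 1 - 1) ∈ maximalIdeal A :=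
      algebraMap_mem_maximalIdeal D.hy
    have : β - 1 = (linComb D.y r₁ 0 1 - algebraMap 𝒪 A (linComb D.y D.lift 0 1)) +
        algebraMap 𝒪 A (linComb D.y D.lift 0 1 - 1) := by rw [hβ, map_sub, map_one]; ring
    rw [this]; exact Ideal.add_mem _ h1 h2
  obtain ⟨u, hu⟩ := isUnit_of_sub_one_mem hβ1
  let Q : Matrix (Fin 2) (Fin 2) A := Matrix.diagonal ![β, 1]
  let Qi : Matrix (Fin 2) (Fin 2) A := Matrix.diagonal ![↑u⁻¹, 1]
  have hβu : β * ↑u⁻¹ = 1 := by rw [← hu]; exact u.mul_inv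
  have huβ : (↑u⁻¹ : A) * β = 1 := by rw [← hu]; exact u.inv_mul
  have hQQi : Q * Qi = 1 := by
    ext i j
    fin_cases i <;> fin_cases j <;> simp [Q, Qi, Matrix.mul_apply, Fin.sum_univ_two, hβu]
  have hQiQ : Qi * Q = 1 := by
    ext i j
    fin_cases i <;> fin_cases j <;> simp [Q, Qi, Matrix.mul_apply, Fin.sum_univ_two, huβ]
  refine ⟨Q, Qi, hQQi, hQiQ, ?_, ?_, ?_, ?_⟩
  · intro i j
    fin_cases i <;> fin_cases j <;> simp [Q, hβ1]
  · rw [linComb_conjHom]
    simp [Q, Qi, Matrix.mul_apply, Fin.sum_univ_two, h01]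
  · rw [linComb_conjHom]
    simp [Q, Qi, Matrix.mul_apply, Fin.sum_univ_two, h10]
  · rw [linComb_conjHom]
    simp [Q, Qi, Matrix.mul_apply, Fin.sum_univ_two, ← hβ, huβ]

/-- D3: existence of the normal form. -/
theorem exists_normal_form' [HenselianRing A (maximalIdeal A)] (D : RigidData ρbar)
    (ρA : GaloisRepAdic A)
    (h : ρA.residual.IsEquiv
      (ρbar.baseChangeAlong (IsLocalRing.ResidueField.map (algebraMap 𝒪 A)))) :
    ∃ (r : GQ →* Matrix (Fin 2) (Fin 2) A) (hr : MatCont r),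
      IsResidual D r ∧ IsNormal D r ∧ (ofMatrix r hr).IsEquiv ρA := by
  obtain ⟨r₀, hr₀, hres₀, ⟨e₀⟩⟩ := exists_residual_form D ρA h
  obtain ⟨U, V, hUV, hVU, hU, h01, h10⟩ := exists_conj_diag D r₀ hres₀
  have hres₁ := isResidual_conjHom D U V hUV hVU hU hres₀
  obtain ⟨U', V', hUV', hVU', hU', hnorm⟩ :=
    exists_conj_normal D (conjHom U V hUV hVU r₀) hres₁ h01 h10
  refine ⟨conjHom U' V' hUV' hVU' (conjHom U V hUV hVU r₀),
    matCont_conjHom U' V' hUV' hVU' (matCont_conjHom U V hUV hVU hr₀),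
    isResidual_conjHom D U' V' hUV' hVU' hU' hres₁, hnorm, ?_⟩
  exact ⟨((conjHomEquiv U' V' hUV' hVU' _ (matCont_conjHom U V hUV hVU hr₀)).trans
    (conjHomEquiv U V hUV hVU r₀ hr₀)).trans e₀⟩

theorem exists_normal_form [IsAdicComplete (maximalIdeal A) A] (D : RigidData ρbar)
    (ρA : GaloisRepAdic A)
    (h : ρA.residual.IsEquiv
      (ρbar.baseChangeAlong (IsLocalRing.ResidueField.map (algebraMap 𝒪 A)))) :
    ∃ (r : GQ →* Matrix (Fin 2) (Fin 2) A) (hr : MatCont r),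
      IsResidual D r ∧ IsNormal D r ∧ (ofMatrix r hr).IsEquiv ρA :=
  haveI : HenselianRing A (maximalIdeal A) := IsAdicComplete.henselianRing A (maximalIdeal A)
  exists_normal_form' D ρA h

end Exists

end Fermat.Agent.S53
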