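import Fermat.Agent.S53.Assembly

set_option autoImplicit false
set_option linter.style.haveILetI false
set_option linter.unusedSectionVars false

open IsLocalRing GaloisRep
open scoped TensorProduct

namespace Fermat.Agent.S53

section Artinian

variable {A : Type} [CommRing A] [IsLocalRing A]

lemma exists_pow_maximalIdeal_eq_bot [IsArtinianRing A] : ∃ N : ℕ, maximalIdeal A ^ N = ⊥ := by
  obtain ⟨N, hN⟩ := (isArtinianRing_iff_isNilpotent_maximalIdeal A).mp inferInstance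
  exact ⟨N, hN⟩

lemma matCont_of_eventually_one {r : GQ → Matrix (Fin 2) (Fin 2) A}
    (h : ∃ L : IntermediateField ℚ (AlgebraicClosure ℚ), FiniteDimensional ℚ L ∧
      ∀ σ : GQ, (∀ x ∈ L, σ x = x) → r σ = 1) : MatCont r := by
  obtain ⟨L, hL, h⟩ := h
  intro n
  refine ⟨L, hL, fun σ hσ i j => ?_⟩
  rw [h σ hσ, sub_self]
  exact Ideal.zero_mem _

lemma eventually_one_of_matCont [IsArtinianRing A] {r : GQ → Matrix (Fin 2) (Fin 2) A}
    (h : MatCont r) : ∃ L : IntermediateField ℚ (AlgebraicClosure ℚ), FiniteDimensional ℚ L ∧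
      ∀ σ : GQ, (∀ x ∈ L, σ x = x) → r σ = 1 := by
  obtain ⟨N, hN⟩ := exists_pow_maximalIdeal_eq_bot (A := A)
  obtain ⟨L, hL, h⟩ := h N
  refine ⟨L, hL, fun σ hσ => ?_⟩
  rw [← sub_eq_zero]
  ext i j
  have := h σ hσ i j
  rw [hN, Ideal.mem_bot] at this
  exact this

end Artinian

section Axioms

variable {𝒪 : Type} [CommRing 𝒪] [IsLocalRing 𝒪]
variable {ρbar : ResidualGaloisRep (ResidueField 𝒪)}
variable {𝒟 : ∀ ⦃A : Type⦄ [CommRing A] [IsLocalRing A] [Algebra 𝒪 A], GaloisRepAdic A → Prop}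
variable (D : RigidData ρbar)

/-- The matrix family attached to a family of coefficients. -/
def matOf {P : Type} (ξ : XIdx → P) : GQ → Matrix (Fin 2) (Fin 2) P :=
  fun g => Matrix.of fun i j => ξ (g, i, j)

lemma matOf_apply {P : Type} (ξ : XIdx → P) (g : GQ) (i j : Fin 2) :
    matOf ξ g i j = ξ (g, i, j) := rfl

lemma matOf_comp {P T : Type} [CommRing P] [CommRing T] (ψ : P →+* T) (ξ : XIdx → P) (g : GQ) :
    matOf (ψ ∘ ξ) g = (matOf ξ g).map ψ := rfl

lemma FDef_iff {A : Type} [CommRing A] [IsLocalRing A] [Algebra 𝒪 A] (ξ : XIdx → A) :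
    FDef D 𝒟 A ξ ↔ ∃ (r : GQ →* Matrix (Fin 2) (Fin 2) A) (hr : MatCont r),
      (∀ g, matOf ξ g = r g) ∧ IsResidual D r ∧ IsNormal D r ∧ 𝒟 (ofMatrix r hr) := by
  constructor
  · rintro ⟨r, hr, hent, h1, h2, h3⟩
    exact ⟨r, hr, fun g => by ext i j; exact hent g i j, h1, h2, h3⟩
  · rintro ⟨r, hr, hent, h1, h2, h3⟩
    exact ⟨r, hr, fun g i j => congrFun (congrFun (hent g) i) j, h1, h2, h3⟩

theorem FDef_residual (A : Type) [CommRing A] [IsLocalRing A] [Algebra 𝒪 A]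
    (ξ : XIdx → A) (h : FDef D 𝒟 A ξ) (x : XIdx) :
    ξ x - algebraMap 𝒪 A (D.lift x.1 x.2.1 x.2.2) ∈ maximalIdeal A := by
  obtain ⟨r, -, hent, hres, -, -⟩ := h
  obtain ⟨g, i, j⟩ := x
  rw [hent g i j]
  exact hres g i j

theorem FDef_map (h𝒟 : IsDeformationCondition 𝒪 𝒟)
    (A B : Type) [CommRing A] [IsLocalRing A] [Algebra 𝒪 A]
    [CommRing B] [IsLocalRing B] [Algebra 𝒪 B]
    (hA : IsArtinianTestAlgebra 𝒪 A) (hB : IsArtinianTestAlgebra 𝒪 B)
    (φ : A →ₐ[𝒪] B) (hφ : IsLocalHom (φ : A →+* B)) (ξ : XIdx → A) (h : FDef D 𝒟 A ξ) :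
    FDef D 𝒟 B (φ ∘ ξ) := by
  obtain ⟨r, hr, hent, hres, hnorm, hD⟩ := h
  refine ⟨mapHom (φ : A →+* B) r, matCont_map _ hφ hr, fun g i j => ?_,
    isResidual_mapHom D φ hφ hres, isNormal_mapHom D φ hnorm, ?_⟩
  · simp only [Function.comp_apply, hent g i j]; rfl
  · exact h𝒟.of_isEquiv hB (baseChangeAlong_ofMatrix_isEquiv (φ : A →+* B) hφ r hr)
      (h𝒟.baseChangeAlong hA hB φ hφ hD)

/-- Build `FDef` on `P` from a monoid hom with the right entries, plus a way to check `𝒟`. -/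
lemma FDef_of_data {P : Type} [CommRing P] [IsLocalRing P] [Algebra 𝒪 P] [IsArtinianRing P]
    (ξ : XIdx → P)
    (hone : matOf ξ 1 = 1) (hmul : ∀ g h, matOf ξ (g * h) = matOf ξ g * matOf ξ h)
    (hev : ∃ L : IntermediateField ℚ (AlgebraicClosure ℚ), FiniteDimensional ℚ L ∧
      ∀ σ : GQ, (∀ x ∈ L, σ x = x) → matOf ξ σ = 1)
    (hres : IsResidual D (matOf ξ)) (hnorm : IsNormal D (matOf ξ))
    (hD : ∀ (r : GQ →* Matrix (Fin 2) (Fin 2) P) (hr : MatCont r), (∀ g, matOf ξ g = r g) →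
      𝒟 (ofMatrix r hr)) :
    FDef D 𝒟 P ξ := by
  let r : GQ →* Matrix (Fin 2) (Fin 2) P :=
    { toFun := matOf ξ, map_one' := hone, map_mul' := hmul }
  have hr : MatCont r := matCont_of_eventually_one hev
  exact ⟨r, hr, fun g i j => rfl, hres, hnorm, hD r hr fun g => rfl⟩

theorem FDef_of_injective (h𝒟 : IsDeformationCondition 𝒪 𝒟)
    (A B : Type) [CommRing A] [IsLocalRing A] [Algebra 𝒪 A]
    [CommRing B] [IsLocalRing B] [Algebra 𝒪 B]
    (hA : IsArtinianTestAlgebra 𝒪 A) (hB : IsArtinianTestAlgebra 𝒪 B)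
    (φ : A →ₐ[𝒪] B) (hφ : IsLocalHom (φ : A →+* B)) (hinj : Function.Injective φ)
    (ξ : XIdx → A) (h : FDef D 𝒟 B (φ ∘ ξ)) : FDef D 𝒟 A ξ := by
  haveI := hA.isArtinian
  haveI := hB.isArtinian
  obtain ⟨r', hr', hent, hres, hnorm, hD⟩ := (FDef_iff D _).mp h
  have hmapinj : Function.Injective (fun M : Matrix (Fin 2) (Fin 2) A => M.map φ) :=
    fun M N hMN => by
      ext i j
      exact hinj (congrFun (congrFun hMN i) j)
  have hent' : ∀ g, (matOf ξ g).map φ = r' g := fun g => hent g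
  refine FDef_of_data D ξ ?_ ?_ ?_ ?_ ?_ ?_
  · apply hmapinj
    show (matOf ξ 1).map φ = (1 : Matrix (Fin 2) (Fin 2) A).map φ
    rw [hent', map_one]
    exact (Matrix.map_one _ (map_zero _) (map_one _)).symm
  · intro g h
    apply hmapinj
    show (matOf ξ (g * h)).map φ = (matOf ξ g * matOf ξ h).map φ
    rw [hent', map_mul, Matrix.map_mul, hent', hent']
  · obtain ⟨L, hL, hL1⟩ := eventually_one_of_matCont hr'
    refine ⟨L, hL, fun σ hσ => ?_⟩
    apply hmapinj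
    show (matOf ξ σ).map φ = (1 : Matrix (Fin 2) (Fin 2) A).map φ
    rw [hent', hL1 σ hσ]
    exact (Matrix.map_one _ (map_zero _) (map_one _)).symm
  · intro g i j
    have h1 := hres g i j
    rw [← hent' g] at h1
    have h2 : (matOf ξ g).map φ i j - algebraMap 𝒪 B (D.lift g i j) =
        φ (matOf ξ g i j - algebraMap 𝒪 A (D.lift g i j)) := by
      rw [map_sub, AlgHom.commutes]; rfl
    rw [h2] at h1
    by_contra hn
    have hu : IsUnit (matOf ξ g i j - algebraMap 𝒪 A (D.lift g i j)) := by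
      by_contra hnu
      exact hn ((mem_maximalIdeal _).mpr hnu)
    exact (mem_maximalIdeal _).mp h1 (hu.map φ)
  · have hfun : (⇑r' : GQ → Matrix (Fin 2) (Fin 2) B) = fun g => (matOf ξ g).map φ :=
      funext fun g => (hent' g).symm
    obtain ⟨n1, n2, n3⟩ := hnorm
    rw [hfun] at n1 n2 n3
    rw [linComb_map] at n1 n2 n3
    exact ⟨hinj (n1.trans (map_zero φ).symm), hinj (n2.trans (map_zero φ).symm),
      hinj (n3.trans (map_one φ).symm)⟩
  · intro r hr hrξ
    have hr'eq : r' = mapHom (φ : A →+* B) r :=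
      MonoidHom.ext fun g => by
        rw [← hent', hrξ g]; rfl
    subst hr'eq
    exact h𝒟.of_baseChangeAlong_injective hA hB φ hφ hinj
      (h𝒟.of_isEquiv hB
        (isEquiv_symm (baseChangeAlong_ofMatrix_isEquiv (φ : A →+* B) hφ r hr)) hD)

theorem FDef_fibre (h𝒟 : IsDeformationCondition 𝒪 𝒟)
    (A B C P : Type) [CommRing A] [IsLocalRing A] [Algebra 𝒪 A]
    [CommRing B] [IsLocalRing B] [Algebra 𝒪 B] [CommRing C] [IsLocalRing C] [Algebra 𝒪 C]
    [CommRing P] [IsLocalRing P] [Algebra 𝒪 P]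
    (hA : IsArtinianTestAlgebra 𝒪 A) (hB : IsArtinianTestAlgebra 𝒪 B)
    (hC : IsArtinianTestAlgebra 𝒪 C) (hP : IsArtinianTestAlgebra 𝒪 P)
    (f : A →ₐ[𝒪] C) (g : B →ₐ[𝒪] C) (pA : P →ₐ[𝒪] A) (pB : P →ₐ[𝒪] B)
    (hpA : IsLocalHom (pA : P →+* A)) (hpB : IsLocalHom (pB : P →+* B))
    (hfg : f.comp pA = g.comp pB)
    (hinj : Function.Injective (fun x => (pA x, pB x)))
    (hsurj : ∀ a b, f a = g b → ∃ x, pA x = a ∧ pB x = b)
    (ξ : XIdx → P) (h1 : FDef D 𝒟 A (pA ∘ ξ)) (h2 : FDef D 𝒟 B (pB ∘ ξ)) : FDef D 𝒟 P ξ := by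
  haveI := hA.isArtinian
  haveI := hB.isArtinian
  haveI := hP.isArtinian
  obtain ⟨rA, hrA, hentA, hresA, hnormA, hDA⟩ := (FDef_iff D _).mp h1
  obtain ⟨rB, hrB, hentB, -, hnormB, hDB⟩ := (FDef_iff D _).mp h2
  have hinj' : ∀ x y : P, pA x = pA y → pB x = pB y → x = y := fun x y h h' =>
    hinj (Prod.ext h h')
  have hmapinj : ∀ M N : Matrix (Fin 2) (Fin 2) P, M.map pA = N.map pA → M.map pB = N.map pB →
      M = N := fun M N h h' => by
    ext i j
    exact hinj' _ _ (congrFun (congrFun h i) j) (congrFun (congrFun h' i) j)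
  have hentA' : ∀ g, (matOf ξ g).map pA = rA g := fun g => hentA g
  have hentB' : ∀ g, (matOf ξ g).map pB = rB g := fun g => hentB g
  refine FDef_of_data D ξ ?_ ?_ ?_ ?_ ?_ ?_
  · apply hmapinj
    · rw [hentA', map_one]; exact (Matrix.map_one _ (map_zero _) (map_one _)).symm
    · rw [hentB', map_one]; exact (Matrix.map_one _ (map_zero _) (map_one _)).symm
  · intro g h
    apply hmapinj
    · rw [hentA', map_mul, Matrix.map_mul, hentA', hentA']
    · rw [hentB', map_mul, Matrix.map_mul, hentB', hentB']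
  · obtain ⟨LA, hLA, hLA1⟩ := eventually_one_of_matCont hrA
    obtain ⟨LB, hLB, hLB1⟩ := eventually_one_of_matCont hrB
    refine ⟨LA ⊔ LB, IntermediateField.finiteDimensional_sup LA LB, fun σ hσ => ?_⟩
    apply hmapinj
    · rw [hentA', hLA1 σ fun x hx => hσ x ((le_sup_left : LA ≤ LA ⊔ LB) hx)]
      exact (Matrix.map_one _ (map_zero _) (map_one _)).symm
    · rw [hentB', hLB1 σ fun x hx => hσ x ((le_sup_right : LB ≤ LA ⊔ LB) hx)]
      exact (Matrix.map_one _ (map_zero _) (map_one _)).symm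
  · intro g i j
    have h1 := hresA g i j
    rw [← hentA' g] at h1
    have h2 : (matOf ξ g).map pA i j - algebraMap 𝒪 A (D.lift g i j) =
        pA (matOf ξ g i j - algebraMap 𝒪 P (D.lift g i j)) := by
      rw [map_sub, AlgHom.commutes]; rfl
    rw [h2] at h1
    by_contra hn
    have hu : IsUnit (matOf ξ g i j - algebraMap 𝒪 P (D.lift g i j)) := by
      by_contra hnu
      exact hn ((mem_maximalIdeal _).mpr hnu)
    exact (mem_maximalIdeal _).mp h1 (hu.map pA)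
  · have hfunA : (⇑rA : GQ → Matrix (Fin 2) (Fin 2) A) = fun g => (matOf ξ g).map pA :=
      funext fun g => (hentA' g).symm
    have hfunB : (⇑rB : GQ → Matrix (Fin 2) (Fin 2) B) = fun g => (matOf ξ g).map pB :=
      funext fun g => (hentB' g).symm
    obtain ⟨a1, a2, a3⟩ := hnormA
    obtain ⟨b1, b2, b3⟩ := hnormB
    rw [hfunA] at a1 a2 a3
    rw [hfunB] at b1 b2 b3
    rw [linComb_map] at a1 a2 a3 b1 b2 b3
    exact ⟨hinj' _ _ (a1.trans (map_zero pA).symm) (b1.trans (map_zero pB).symm),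
      hinj' _ _ (a2.trans (map_zero pA).symm) (b2.trans (map_zero pB).symm),
      hinj' _ _ (a3.trans (map_one pA).symm) (b3.trans (map_one pB).symm)⟩
  · intro r hr hrξ
    have hrAeq : rA = mapHom (pA : P →+* A) r :=
      MonoidHom.ext fun g => by rw [← hentA', hrξ g]; rfl
    have hrBeq : rB = mapHom (pB : P →+* B) r :=
      MonoidHom.ext fun g => by rw [← hentB', hrξ g]; rfl
    subst hrAeq hrBeq
    exact h𝒟.of_fibreProduct hA hB hC hP f g pA pB hpA hpB hfg hinj hsurj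
      (h𝒟.of_isEquiv hA
        (isEquiv_symm (baseChangeAlong_ofMatrix_isEquiv (pA : P →+* A) hpA r hr)) hDA)
      (h𝒟.of_isEquiv hB
        (isEquiv_symm (baseChangeAlong_ofMatrix_isEquiv (pB : P →+* B) hpB r hr)) hDB)

end Axioms

end Fermat.Agent.S53
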