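import Fermat.Agent.S53.Lift

set_option autoImplicit false

open IsLocalRing GaloisRep Polynomial
open scoped TensorProduct

namespace Fermat.Agent.S53

section Hensel

variable {A : Type} [CommRing A] [IsLocalRing A] [HenselianRing A (maximalIdeal A)]

/-- A root of the characteristic polynomial near the diagonal entry `a`. -/
lemma exists_root_near (a b c d : A) (hb : b ∈ maximalIdeal A)
    (hu : IsUnit (a - d)) :
    ∃ l : A, l ^ 2 - (a + d) * l + (a * d - b * c) = 0 ∧ l - a ∈ maximalIdeal A := by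
  let f : A[X] := X ^ 2 - C (a + d) * X + C (a * d - b * c)
  have hf : f.Monic := by
    have : f = X ^ 2 + (- C (a + d) * X + C (a * d - b * c)) := by simp only [f]; ring
    rw [this]
    apply Polynomial.monic_X_pow_add
    refine lt_of_le_of_lt (Polynomial.degree_add_le _ _) ?_
    refine max_lt ?_ ?_
    · refine lt_of_le_of_lt (Polynomial.degree_mul_le _ _) ?_
      rw [Polynomial.degree_neg]
      refine lt_of_le_of_lt (add_le_add Polynomial.degree_C_le Polynomial.degree_X_le) ?_
      norm_num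
    · exact lt_of_le_of_lt Polynomial.degree_C_le (by norm_num)
  have h1 : f.eval a ∈ maximalIdeal A := by
    have : f.eval a = - (b * c) := by
      simp only [f, eval_add, eval_sub, eval_mul, eval_pow, eval_X, eval_C]
      ring
    rw [this]
    exact neg_mem (Ideal.mul_mem_right _ _ hb)
  have h2 : IsUnit (Ideal.Quotient.mk (maximalIdeal A) (f.derivative.eval a)) := by
    have : f.derivative.eval a = a - d := by
      simp only [f, derivative_add, derivative_sub, derivative_mul, derivative_X_pow,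
        derivative_C, derivative_X, eval_add, eval_sub, eval_mul, eval_pow, eval_X, eval_C]
      simp; ring
    rw [this]
    exact hu.map _
  obtain ⟨l, hl, hla⟩ := HenselianRing.is_henselian f hf a h1 h2
  refine ⟨l, ?_, hla⟩
  have : f.eval l = 0 := hl
  simpa only [f, eval_add, eval_sub, eval_mul, eval_pow, eval_X, eval_C] using this

/-- Hensel diagonalisation of a `2 × 2` matrix which is diagonal with distinct eigenvalues modulo
the maximal ideal. -/
lemma exists_diagonalise (a b c d : A) (hb : b ∈ maximalIdeal A) (hc : c ∈ maximalIdeal A)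
    (hu : IsUnit (a - d)) :
    ∃ s t l₁ l₂ : A, s ∈ maximalIdeal A ∧ t ∈ maximalIdeal A ∧
      a + b * t = l₁ ∧ c + d * t = t * l₁ ∧ a * s + b = s * l₂ ∧ c * s + d = l₂ := by
  obtain ⟨l₁, h1, h1a⟩ := exists_root_near a b c d hb hu
  have hu' : IsUnit (d - a) := by
    have : d - a = -(a - d) := by ring
    rw [this]; exact hu.neg
  obtain ⟨l₂, h2, h2d⟩ := exists_root_near d c b a hc hu'
  -- `l₁ - d` and `l₂ - a` are units
  have hu1 : IsUnit (l₁ - d) := by
    by_contra hn
    have hm : l₁ - d ∈ maximalIdeal A := (mem_maximalIdeal _).mpr hn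
    have : a - d ∈ maximalIdeal A := by
      have : a - d = (l₁ - d) - (l₁ - a) := by ring
      rw [this]; exact Ideal.sub_mem _ hm h1a
    exact (mem_maximalIdeal _).mp this hu
  have hu2 : IsUnit (l₂ - a) := by
    by_contra hn
    have hm : l₂ - a ∈ maximalIdeal A := (mem_maximalIdeal _).mpr hn
    have : d - a ∈ maximalIdeal A := by
      have : d - a = (l₂ - a) - (l₂ - d) := by ring
      rw [this]; exact Ideal.sub_mem _ hm h2d
    exact (mem_maximalIdeal _).mp this hu'
  obtain ⟨u1, hu1e⟩ := hu1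
  obtain ⟨u2, hu2e⟩ := hu2
  -- t = c / (l₁ - d), s = b / (l₂ - a)
  refine ⟨b * ↑u2⁻¹, c * ↑u1⁻¹, l₁, l₂, Ideal.mul_mem_right _ _ hb, Ideal.mul_mem_right _ _ hc,
    ?_, ?_, ?_, ?_⟩
  · -- a + b t = l₁  ⟸  b c = (l₁ - a)(l₁ - d)
    have key : (l₁ - a) * (l₁ - d) = b * c := by linear_combination h1
    have : (a + b * (c * ↑u1⁻¹) - l₁) * (l₁ - d) = 0 := by
      have hinv : (↑u1⁻¹ : A) * (l₁ - d) = 1 := by rw [← hu1e]; exact u1.inv_mul
      linear_combination (b * c) * hinv - key
    rw [← hu1e] at this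
    have := (u1.isUnit.mul_left_eq_zero).mp this
    exact sub_eq_zero.mp this
  · have hinv : (↑u1⁻¹ : A) * (l₁ - d) = 1 := by rw [← hu1e]; exact u1.inv_mul
    linear_combination (-c) * hinv
  · have hinv : (↑u2⁻¹ : A) * (l₂ - a) = 1 := by rw [← hu2e]; exact u2.inv_mul
    linear_combination (-b) * hinv
  · have key : (l₂ - d) * (l₂ - a) = c * b := by linear_combination h2
    have : (c * (b * ↑u2⁻¹) + d - l₂) * (l₂ - a) = 0 := by
      have hinv : (↑u2⁻¹ : A) * (l₂ - a) = 1 := by rw [← hu2e]; exact u2.inv_mul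
      linear_combination (c * b) * hinv - key
    rw [← hu2e] at this
    have := (u2.isUnit.mul_left_eq_zero).mp this
    exact sub_eq_zero.mp this

end Hensel

section Conj

variable {A : Type} [CommRing A] [IsLocalRing A]

/-- Conjugate a matrix representation by an invertible matrix. -/
noncomputable def conjHom (U V : Matrix (Fin 2) (Fin 2) A) (hUV : U * V = 1) (hVU : V * U = 1)
    (r : GQ →* Matrix (Fin 2) (Fin 2) A) : GQ →* Matrix (Fin 2) (Fin 2) A where
  toFun g := V * r g * U
  map_one' := by rw [map_one, mul_one, hVU]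
  map_mul' g h := by
    rw [map_mul]
    calc V * (r g * r h) * U = V * r g * 1 * (r h * U) := by simp only [mul_one, mul_assoc]
      _ = V * r g * (U * V) * (r h * U) := by rw [hUV]
      _ = V * r g * U * (V * r h * U) := by simp only [mul_assoc]

omit [IsLocalRing A] in
@[simp] lemma conjHom_apply (U V : Matrix (Fin 2) (Fin 2) A) (hUV : U * V = 1) (hVU : V * U = 1)
    (r : GQ →* Matrix (Fin 2) (Fin 2) A) (g : GQ) : conjHom U V hUV hVU r g = V * r g * U := rfl

omit [IsLocalRing A] in
lemma mul_mul_apply_mem (I : Ideal A) (V M U : Matrix (Fin 2) (Fin 2) A)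
    (hM : ∀ i j, M i j ∈ I) (i j : Fin 2) : (V * M * U) i j ∈ I := by
  simp only [Matrix.mul_apply, Fin.sum_univ_two]
  refine Ideal.add_mem _ (Ideal.mul_mem_right _ _ (Ideal.add_mem _ ?_ ?_))
    (Ideal.mul_mem_right _ _ (Ideal.add_mem _ ?_ ?_)) <;>
  exact Ideal.mul_mem_left _ _ (hM _ _)

omit [IsLocalRing A] in
lemma mul_apply_mem_left (I : Ideal A) (M U : Matrix (Fin 2) (Fin 2) A)
    (hM : ∀ i j, M i j ∈ I) (i j : Fin 2) : (M * U) i j ∈ I := by
  simp only [Matrix.mul_apply, Fin.sum_univ_two]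
  exact Ideal.add_mem _ (Ideal.mul_mem_right _ _ (hM _ _)) (Ideal.mul_mem_right _ _ (hM _ _))

omit [IsLocalRing A] in
lemma mul_apply_mem_right (I : Ideal A) (V M : Matrix (Fin 2) (Fin 2) A)
    (hM : ∀ i j, M i j ∈ I) (i j : Fin 2) : (V * M) i j ∈ I := by
  simp only [Matrix.mul_apply, Fin.sum_univ_two]
  exact Ideal.add_mem _ (Ideal.mul_mem_left _ _ (hM _ _)) (Ideal.mul_mem_left _ _ (hM _ _))

lemma matCont_conjHom (U V : Matrix (Fin 2) (Fin 2) A) (hUV : U * V = 1) (hVU : V * U = 1)
    {r : GQ →* Matrix (Fin 2) (Fin 2) A} (hr : MatCont r) : MatCont (conjHom U V hUV hVU r) := by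
  intro n
  obtain ⟨L, hL, h⟩ := hr n
  refine ⟨L, hL, fun σ hσ i j => ?_⟩
  have : conjHom U V hUV hVU r σ - 1 = V * (r σ - 1) * U := by
    rw [conjHom_apply, mul_sub, sub_mul, mul_one, hVU]
  rw [this]
  exact mul_mul_apply_mem _ V _ U (h σ hσ) i j

omit [IsLocalRing A] in
/-- The inverse of a matrix congruent to `1` is congruent to `1`. -/
lemma inv_sub_one_mem (I : Ideal A) (U V : Matrix (Fin 2) (Fin 2) A) (hVU : V * U = 1)
    (hU : ∀ i j, (U - 1) i j ∈ I) (i j : Fin 2) : (V - 1) i j ∈ I := by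
  have : V - 1 = V * (-(U - 1)) := by
    rw [mul_neg, mul_sub, hVU, mul_one]; abel
  rw [this]
  exact mul_apply_mem_right I V _ (fun i j => by
    rw [Matrix.neg_apply]; exact neg_mem (hU i j)) i j

omit [IsLocalRing A] in
/-- Conjugation by a matrix congruent to `1` does not change the matrix modulo the ideal. -/
lemma conj_sub_mem (I : Ideal A) (U V M : Matrix (Fin 2) (Fin 2) A) (hVU : V * U = 1)
    (hU : ∀ i j, (U - 1) i j ∈ I) (i j : Fin 2) : (V * M * U) i j - M i j ∈ I := by
  have hV := inv_sub_one_mem I U V hVU hU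
  have : V * M * U - M = (V - 1) * (M * U) + M * (U - 1) := by
    rw [sub_mul, one_mul, mul_sub, mul_one, mul_assoc]; abel
  rw [← Matrix.sub_apply, this, Matrix.add_apply]
  exact Ideal.add_mem _ (mul_apply_mem_left I _ _ hV i j) (mul_apply_mem_right I _ _ hU i j)

variable {𝒪 : Type} [CommRing 𝒪] [IsLocalRing 𝒪]
variable {ρbar : ResidualGaloisRep (ResidueField 𝒪)}

lemma isResidual_conjHom (D : RigidData ρbar) [Algebra 𝒪 A]
    (U V : Matrix (Fin 2) (Fin 2) A) (hUV : U * V = 1) (hVU : V * U = 1)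
    (hU : ∀ i j, (U - 1) i j ∈ maximalIdeal A)
    {r : GQ →* Matrix (Fin 2) (Fin 2) A} (hr : IsResidual D r) :
    IsResidual D (conjHom U V hUV hVU r) := by
  intro g i j
  have h1 := conj_sub_mem (maximalIdeal A) U V (r g) hVU hU i j
  have h2 := hr g i j
  have : conjHom U V hUV hVU r g i j - algebraMap 𝒪 A (D.lift g i j) =
      ((V * r g * U) i j - r g i j) + (r g i j - algebraMap 𝒪 A (D.lift g i j)) := by
    rw [conjHom_apply]; ring
  rw [this]
  exact Ideal.add_mem _ h1 h2

omit [IsLocalRing A] [IsLocalRing 𝒪] in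
lemma linComb_conjHom [Algebra 𝒪 A] (x : GQ →₀ 𝒪)
    (U V : Matrix (Fin 2) (Fin 2) A) (hUV : U * V = 1) (hVU : V * U = 1)
    (r : GQ →* Matrix (Fin 2) (Fin 2) A) :
    linComb x (conjHom U V hUV hVU r) = V * linComb x r * U := by
  rw [linComb_mul_left, linComb_mul_right]
  rfl

omit [IsLocalRing A] in
lemma conj_raw (U V M : Matrix (Fin 2) (Fin 2) A) (hUV : U * V = 1) (hVU : V * U = 1)
    (x : Fin 2 → A) :
    (Matrix.toLin'OfInv hVU hUV) ((V * M * U).mulVec x) =
      M.mulVec ((Matrix.toLin'OfInv hVU hUV) x) := by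
  show U.mulVec ((V * M * U).mulVec x) = M.mulVec (U.mulVec x)
  rw [Matrix.mulVec_mulVec, Matrix.mulVec_mulVec]
  congr 1
  calc U * (V * M * U) = (U * V) * M * U := by simp only [mul_assoc]
    _ = M * U := by rw [hUV, one_mul]

/-- The conjugated representation is equivalent to the original one. -/
noncomputable def conjHomEquiv (U V : Matrix (Fin 2) (Fin 2) A) (hUV : U * V = 1)
    (hVU : V * U = 1) (r : GQ →* Matrix (Fin 2) (Fin 2) A) (hr : MatCont r) :
    GaloisRepAdic.Equiv (ofMatrix (conjHom U V hUV hVU r) (matCont_conjHom U V hUV hVU hr))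
      (ofMatrix r hr) where
  toLinearEquiv := Matrix.toLin'OfInv hVU hUV
  map_apply := fun σ x => conj_raw U V (r σ) hUV hVU x

end Conj

end Fermat.Agent.S53
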