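import Fermat.Agent.S53.Normal

set_option autoImplicit false

open IsLocalRing GaloisRep
open scoped TensorProduct

namespace Fermat.Agent.S53

section Raw

variable {A : Type} [CommRing A] [IsLocalRing A]
variable {V : Type} [AddCommGroup V] [Module A V] [Module.Free A V] [Module.Finite A V]
variable {W : Type} [AddCommGroup W] [Module (ResidueField A) W]

/-- Lifting a basis of the residual module to a basis of a finite free module over a local ring. -/
lemma exists_basis_lift (b' : Module.Basis (Fin 2) (ResidueField A) W)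
    (E : (ResidueField A ⊗[A] V) ≃ₗ[ResidueField A] W) :
    ∃ vB : Module.Basis (Fin 2) A V, ∀ i, E ((1 : ResidueField A) ⊗ₜ[A] vB i) = b' i := by
  let bw : Module.Basis (Fin 2) (ResidueField A) (ResidueField A ⊗[A] V) := b'.map E.symm
  have hsurj : Function.Surjective (TensorProduct.mk A (ResidueField A) V 1) :=
    TensorProduct.mk_surjective A V (ResidueField A) (by
      rw [IsLocalRing.ResidueField.algebraMap_eq]; exact IsLocalRing.residue_surjective)
  choose v hv using fun i => hsurj (bw i)
  have hcomp : (TensorProduct.mk A (ResidueField A) V 1) ∘ v = bw := funext hv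
  have hli : LinearIndependent A v := by
    apply Module.IsLocalRing.linearIndependent_of_flat
    rw [hcomp]
    exact bw.linearIndependent
  have hsp : Submodule.span A (Set.range v) = ⊤ :=
    IsLocalRing.span_eq_top_of_tmul_eq_basis v bw hv
  refine ⟨Module.Basis.mk hli hsp.ge, fun i => ?_⟩
  rw [Module.Basis.mk_apply]
  have := hv i
  rw [TensorProduct.mk_apply] at this
  rw [this]
  simp [bw]

omit [Module.Free A V] [Module.Finite A V] in
/-- The matrix of a base-changed endomorphism, transported along an equivariant isomorphism. -/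
lemma toMatrix_map_residue (vB : Module.Basis (Fin 2) A V)
    (b' : Module.Basis (Fin 2) (ResidueField A) W)
    (E : (ResidueField A ⊗[A] V) ≃ₗ[ResidueField A] W)
    (hE : ∀ i, E ((1 : ResidueField A) ⊗ₜ[A] vB i) = b' i)
    (f : V →ₗ[A] V) (F : W →ₗ[ResidueField A] W)
    (hF : ∀ w, E (f.baseChange (ResidueField A) w) = F (E w)) :
    (LinearMap.toMatrix vB vB f).map (residue A) = LinearMap.toMatrix b' b' F := by
  have h1 := LinearMap.toMatrix_baseChange (ResidueField A) f vB vB
  rw [IsLocalRing.ResidueField.algebraMap_eq] at h1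
  rw [← h1]
  ext i j
  rw [LinearMap.toMatrix_apply, LinearMap.toMatrix_apply]
  have hb : ∀ i, E (Algebra.TensorProduct.basis (ResidueField A) vB i) = b' i := fun i => by
    rw [Algebra.TensorProduct.basis_apply]; exact hE i
  have hmap : (Algebra.TensorProduct.basis (ResidueField A) vB).map E = b' :=
    Module.Basis.eq_of_apply_eq fun i => by rw [Module.Basis.map_apply]; exact hb i
  rw [← hb j, ← hF, ← hmap, Module.Basis.map_repr, LinearEquiv.trans_apply,
    LinearEquiv.symm_apply_apply]

omit [IsLocalRing A] [Module.Free A V] [Module.Finite A V] in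
lemma equivFun_symm_toMatrix_mulVec (vB : Module.Basis (Fin 2) A V) (f : V →ₗ[A] V)
    (x : Fin 2 → A) :
    vB.equivFun.symm ((LinearMap.toMatrix vB vB f).mulVec x) = f (vB.equivFun.symm x) := by
  apply vB.equivFun.injective
  rw [LinearEquiv.apply_symm_apply]
  have := LinearMap.toMatrix_mulVec_repr vB vB f (vB.equivFun.symm x)
  rw [Module.Basis.equivFun_apply, ← this]
  congr 1
  exact (vB.equivFun.apply_symm_apply x).symm

omit [IsLocalRing A] [Module.Free A V] [Module.Finite A V] in
lemma repr_mem_of_mem_smul_top (vB : Module.Basis (Fin 2) A V) (I : Ideal A) (x : V)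
    (hx : x ∈ I • (⊤ : Submodule A V)) (i : Fin 2) : vB.repr x i ∈ I := by
  refine Submodule.smul_induction_on hx (fun a ha w _ => ?_) (fun x y hx hy => ?_)
  · rw [map_smul, Finsupp.smul_apply, smul_eq_mul]
    exact Ideal.mul_mem_right _ _ ha
  · rw [map_add, Finsupp.add_apply]
    exact Ideal.add_mem _ hx hy

end Raw

section Step1

variable {𝒪 : Type} [CommRing 𝒪] [IsLocalRing 𝒪]
variable {ρbar : ResidualGaloisRep (ResidueField 𝒪)}

/-- The matrix representation of an adic representation in a basis. -/
noncomputable def matOfBasis {A : Type} [CommRing A] [IsLocalRing A] (ρA : GaloisRepAdic A)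
    (vB : Module.Basis (Fin 2) A ρA.V) : GQ →* Matrix (Fin 2) (Fin 2) A :=
  ((LinearMap.toMatrixAlgEquiv vB : (ρA.V →ₗ[A] ρA.V) ≃ₐ[A] Matrix (Fin 2) (Fin 2) A) :
    (ρA.V →ₗ[A] ρA.V) →* Matrix (Fin 2) (Fin 2) A).comp ρA.ρ

lemma matOfBasis_apply {A : Type} [CommRing A] [IsLocalRing A] (ρA : GaloisRepAdic A)
    (vB : Module.Basis (Fin 2) A ρA.V) (σ : GQ) :
    matOfBasis ρA vB σ = LinearMap.toMatrix vB vB (ρA.ρ σ) := rfl

lemma matCont_matOfBasis {A : Type} [CommRing A] [IsLocalRing A] (ρA : GaloisRepAdic A)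
    (vB : Module.Basis (Fin 2) A ρA.V) : MatCont (matOfBasis ρA vB) := by
  intro n
  obtain ⟨L, hL, h⟩ := ρA.isAdicContinuous n
  refine ⟨L, hL, fun σ hσ i j => ?_⟩
  have h1 : (matOfBasis ρA vB σ - 1) i j = vB.repr (ρA.ρ σ (vB j) - vB j) i := by
    rw [Matrix.sub_apply, matOfBasis_apply, LinearMap.toMatrix_apply, map_sub,
      Finsupp.sub_apply, Module.Basis.repr_self, Matrix.one_apply, Finsupp.single_apply]
    congr 1
    by_cases hij : i = j
    · simp [hij]
    · rw [if_neg hij, if_neg (Ne.symm hij)]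
  rw [h1]
  exact repr_mem_of_mem_smul_top vB _ _ (h σ hσ (vB j)) i

/-- `ofMatrix` of the matrix representation in a basis is equivalent to the representation. -/
noncomputable def ofMatrixMatOfBasisEquiv {A : Type} [CommRing A] [IsLocalRing A]
    (ρA : GaloisRepAdic A) (vB : Module.Basis (Fin 2) A ρA.V) :
    GaloisRepAdic.Equiv (ofMatrix (matOfBasis ρA vB) (matCont_matOfBasis ρA vB)) ρA where
  toLinearEquiv := vB.equivFun.symm
  map_apply := fun σ x => equivFun_symm_toMatrix_mulVec vB (ρA.ρ σ) x

/-- raw version of Step 1, with an abstract coefficient field `k` -/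
lemma exists_residual_basis_raw {k : Type} [Field k] {A : Type} [CommRing A] [IsLocalRing A]
    [Algebra k (ResidueField A)] {Vb : Type} [AddCommGroup Vb] [Module k Vb]
    (b : Module.Basis (Fin 2) k Vb)
    {V : Type} [AddCommGroup V] [Module A V] [Module.Free A V] [Module.Finite A V]
    (E : (ResidueField A ⊗[A] V) ≃ₗ[ResidueField A] (ResidueField A ⊗[k] Vb)) :
    ∃ vB : Module.Basis (Fin 2) A V, ∀ (f : V →ₗ[A] V) (F : Vb →ₗ[k] Vb),
      (∀ w, E (f.baseChange (ResidueField A) w) = F.baseChange (ResidueField A) (E w)) →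
      ∀ i j, residue A (LinearMap.toMatrix vB vB f i j) =
        algebraMap k (ResidueField A) (LinearMap.toMatrix b b F i j) := by
  obtain ⟨vB, hvB⟩ := exists_basis_lift (Algebra.TensorProduct.basis (ResidueField A) b) E
  refine ⟨vB, fun f F hF i j => ?_⟩
  have h1 := toMatrix_map_residue vB (Algebra.TensorProduct.basis (ResidueField A) b) E hvB f
    (F.baseChange (ResidueField A)) hF
  have h2 := LinearMap.toMatrix_baseChange (ResidueField A) F b b
  have := congrFun (congrFun (h1.trans h2) i) j
  simpa only [Matrix.map_apply] using this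

/-- Step 1 of the existence of the normal form: a residual matrix form. -/
theorem exists_residual_form (D : RigidData ρbar) {A : Type} [CommRing A] [IsLocalRing A]
    [Algebra 𝒪 A] [IsLocalHom (algebraMap 𝒪 A)] (ρA : GaloisRepAdic A)
    (h : ρA.residual.IsEquiv
      (ρbar.baseChangeAlong (IsLocalRing.ResidueField.map (algebraMap 𝒪 A)))) :
    ∃ (r : GQ →* Matrix (Fin 2) (Fin 2) A) (hr : MatCont r),
      IsResidual D r ∧ (ofMatrix r hr).IsEquiv ρA := by
  obtain ⟨e⟩ := h
  obtain ⟨vB, hvB⟩ := @exists_residual_basis_raw (ResidueField 𝒪) _ A _ _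
    (IsLocalRing.ResidueField.map (algebraMap 𝒪 A)).toAlgebra ρbar.V _ _ D.b ρA.V _ _ _ _
    e.toLinearEquiv
  refine ⟨matOfBasis ρA vB, matCont_matOfBasis ρA vB, ?_, ⟨ofMatrixMatOfBasisEquiv ρA vB⟩⟩
  intro g i j
  have h3 := hvB (ρA.ρ g) (ρbar.ρ g) (fun w => e.map_apply g w) i j
  rw [← residue_eq_zero_iff, map_sub, sub_eq_zero, matOfBasis_apply, h3, ← D.lift_spec]
  exact IsLocalRing.ResidueField.map_residue (algebraMap 𝒪 A) _

end Step1

end Fermat.Agent.S53
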