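import Fermat.Statements.S53

set_option autoImplicit false

open IsLocalRing
open scoped TensorProduct

namespace Fermat.Agent.S53

/-- The absolute Galois group of `ℚ`. -/
abbrev GQ : Type := (AlgebraicClosure ℚ ≃ₐ[ℚ] AlgebraicClosure ℚ)

/-- Adic continuity of a matrix-valued map. -/
def MatCont {A : Type} [CommRing A] [IsLocalRing A] (r : GQ → Matrix (Fin 2) (Fin 2) A) : Prop :=
  ∀ n : ℕ, ∃ L : IntermediateField ℚ (AlgebraicClosure ℚ), FiniteDimensional ℚ L ∧
    ∀ σ : GQ, (∀ x ∈ L, σ x = x) → ∀ i j, (r σ - 1) i j ∈ maximalIdeal A ^ n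

lemma mem_pow_smul_top_of_forall_mem {A : Type} [CommRing A] (I : Ideal A) (v : Fin 2 → A)
    (hv : ∀ i, v i ∈ I) : v ∈ I • (⊤ : Submodule A (Fin 2 → A)) := by
  have : v = ∑ i, v i • (Pi.single i (1 : A) : Fin 2 → A) := by
    ext j
    simp [Finset.sum_apply, Pi.single_apply]
  rw [this]
  exact Submodule.sum_mem _ fun i _ => Submodule.smul_mem_smul (hv i) Submodule.mem_top

/-- The adic Galois representation on `A²` attached to a continuous matrix representation. -/
noncomputable def ofMatrix {A : Type} [CommRing A] [IsLocalRing A]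
    (r : GQ →* Matrix (Fin 2) (Fin 2) A) (hr : MatCont r) : GaloisRepAdic A where
  V := Fin 2 → A
  finrank_eq := by simp
  ρ :=
    { toFun := fun σ => Matrix.mulVecLin (r σ)
      map_one' := by rw [map_one, Matrix.mulVecLin_one]; rfl
      map_mul' := fun σ τ => by rw [map_mul, Matrix.mulVecLin_mul]; rfl }
  isAdicContinuous := by
    intro n
    obtain ⟨L, hL, h⟩ := hr n
    refine ⟨L, hL, fun σ hσ v => ?_⟩
    apply mem_pow_smul_top_of_forall_mem
    intro i
    have h1 : (Matrix.mulVecLin (r σ)) v - v = (r σ - 1).mulVec v := by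
      simp [Matrix.sub_mulVec]
    show ((Matrix.mulVecLin (r σ)) v - v) i ∈ _
    rw [h1]
    simp only [Matrix.mulVec, dotProduct]
    exact Ideal.sum_mem _ fun j _ => Ideal.mul_mem_right _ _ (h σ hσ i j)

@[simp] lemma ofMatrix_ρ_apply {A : Type} [CommRing A] [IsLocalRing A]
    (r : GQ →* Matrix (Fin 2) (Fin 2) A) (hr : MatCont r) (σ : GQ) (v : Fin 2 → A) :
    (ofMatrix r hr).ρ σ v = (r σ).mulVec v := rfl

lemma ofMatrix_V {A : Type} [CommRing A] [IsLocalRing A]
    (r : GQ →* Matrix (Fin 2) (Fin 2) A) (hr : MatCont r) :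
    (ofMatrix r hr).V = (Fin 2 → A) := rfl

end Fermat.Agent.S53
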